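/-
T1-D WP-M, helper8: **common kernels and extension of the base field**.

`terKer K fam c ≤ K ⊗[ℤ] L` : the common kernel of the operators `(fam i) ⊗ K - c i` for a family of
endomorphisms `fam i` of an abelian group `L` and scalars `c i ∈ K`.
`ter_finrank_terKer_baseChange` : its dimension does not change under an extension of fields
`k → k'` (flat base change of kernels).
-/
import Mathlib

set_option autoImplicit false
set_option linter.style.haveILetI false
set_option linter.unusedSectionVars false

open scoped TensorProduct

namespace Fermat.Agent.T1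

section General

variable {k k' : Type*} [Field k] [Field k'] [Algebra k k'] {M : Type*} [AddCommGroup M]
  [Module k M] {I : Type*}

/-- the expansion of a tensor along a basis of the extension is compatible with base-changed
endomorphisms -/
theorem ter_equivFinsupp_baseChange {J : Type*} [DecidableEq J] (ℬ : Module.Basis J k k')
    (g : Module.End k M) (z : k' ⊗[k] M) :
    TensorProduct.equivFinsuppOfBasisLeft ℬ (g.baseChange k' z) =
      Finsupp.mapRange g (map_zero g) (TensorProduct.equivFinsuppOfBasisLeft ℬ z) := by
  induction z using TensorProduct.induction_on with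
  | zero => simp
  | tmul a x =>
    rw [LinearMap.baseChange_tmul, TensorProduct.equivFinsuppOfBasisLeft_apply_tmul,
      TensorProduct.equivFinsuppOfBasisLeft_apply_tmul]
    ext j
    simp
  | add x y hx hy =>
    rw [map_add, map_add, hx, hy, map_add]
    ext j
    simp

/-- **flat base change of common kernels** -/
theorem ter_iInf_ker_baseChange (g : I → Module.End k M) :
    ⨅ i, LinearMap.ker ((g i).baseChange k') =
      LinearMap.range ((⨅ i, LinearMap.ker (g i)).subtype.baseChange k') := by
  classical
  apply le_antisymm
  · intro z hz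
    rw [Submodule.mem_iInf] at hz
    let ℬ := Module.Free.chooseBasis k k'
    set m := TensorProduct.equivFinsuppOfBasisLeft ℬ z with hm
    have hmem : ∀ j, m j ∈ ⨅ i, LinearMap.ker (g i) := by
      intro j
      rw [Submodule.mem_iInf]
      intro i
      have h1 := ter_equivFinsupp_baseChange ℬ (g i) z
      rw [LinearMap.mem_ker.mp (hz i), map_zero] at h1
      have h2 := DFunLike.congr_fun h1 j
      rw [Finsupp.mapRange_apply, Finsupp.zero_apply] at h2
      exact LinearMap.mem_ker.mpr h2.symm
    have hz' : z = (TensorProduct.equivFinsuppOfBasisLeft ℬ).symm m := by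
      rw [hm, LinearEquiv.symm_apply_apply]
    rw [hz', TensorProduct.equivFinsuppOfBasisLeft_symm_apply]
    refine Submodule.sum_mem _ fun j _ => ?_
    exact ⟨ℬ j ⊗ₜ[k] ⟨m j, hmem j⟩, by rw [LinearMap.baseChange_tmul]; rfl⟩
  · rintro _ ⟨w, rfl⟩
    rw [Submodule.mem_iInf]
    intro i
    rw [LinearMap.mem_ker, ← LinearMap.comp_apply, ← LinearMap.baseChange_comp]
    have h0 : g i ∘ₗ (⨅ i, LinearMap.ker (g i)).subtype = 0 := by
      ext x
      have := x.2
      rw [Submodule.mem_iInf] at this
      exact LinearMap.mem_ker.mp (this i)
    rw [h0, LinearMap.baseChange_zero, LinearMap.zero_apply]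

theorem ter_finrank_iInf_ker_baseChange (g : I → Module.End k M) :
    Module.finrank k' ↥(⨅ i, LinearMap.ker ((g i).baseChange k')) =
      Module.finrank k ↥(⨅ i, LinearMap.ker (g i)) := by
  rw [ter_iInf_ker_baseChange, LinearMap.finrank_range_of_inj, Module.finrank_baseChange]
  exact Module.Flat.lTensor_preserves_injective_linearMap _ (Submodule.injective_subtype _)

end General

section TerKer

variable {L : Type*} [AddCommGroup L] {I : Type*}

/-- the common kernel of the operators `(fam i) ⊗ K - c i` on `K ⊗[ℤ] L` -/
def terKer (K : Type*) [Field K] (fam : I → Module.End ℤ L) (c : I → K) :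
    Submodule K (K ⊗[ℤ] L) :=
  ⨅ i : I, LinearMap.ker ((fam i).baseChange K - c i • (1 : Module.End K (K ⊗[ℤ] L)))

theorem mem_terKer {K : Type*} [Field K] {fam : I → Module.End ℤ L} {c : I → K}
    {v : K ⊗[ℤ] L} : v ∈ terKer K fam c ↔ ∀ i, (fam i).baseChange K v = c i • v := by
  unfold terKer
  simp only [Submodule.mem_iInf, LinearMap.mem_ker, LinearMap.sub_apply, LinearMap.smul_apply,
    Module.End.one_apply, sub_eq_zero]

variable {k k' : Type*} [Field k] [Field k'] [Algebra k k']

/-- the canonical isomorphism `k' ⊗[k] (k ⊗[ℤ] L) ≃ k' ⊗[ℤ] L` intertwines the operators -/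
theorem ter_cancelBaseChange_intertwine (f : Module.End ℤ L) (c : k) (z : k' ⊗[k] (k ⊗[ℤ] L)) :
    TensorProduct.AlgebraTensorModule.cancelBaseChange ℤ k k' k' L
        ((f.baseChange k - c • (1 : Module.End k (k ⊗[ℤ] L))).baseChange k' z) =
      (f.baseChange k' - algebraMap k k' c • (1 : Module.End k' (k' ⊗[ℤ] L)))
        (TensorProduct.AlgebraTensorModule.cancelBaseChange ℤ k k' k' L z) := by
  induction z using TensorProduct.induction_on with
  | zero => simp
  | tmul a y =>
    induction y using TensorProduct.induction_on with
    | zero => simp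
    | tmul b x =>
      simp only [LinearMap.baseChange_tmul, LinearMap.sub_apply, LinearMap.smul_apply,
        Module.End.one_apply, TensorProduct.tmul_sub, map_sub,
        TensorProduct.smul_tmul', TensorProduct.AlgebraTensorModule.cancelBaseChange_tmul]
      rw [smul_eq_mul, mul_smul, Algebra.smul_def (c : k), smul_eq_mul]
    | add y₁ y₂ h₁ h₂ =>
      rw [TensorProduct.tmul_add, map_add, map_add, h₁, h₂, map_add, map_add]
  | add z₁ z₂ h₁ h₂ => rw [map_add, map_add, h₁, h₂, map_add, map_add]

/-- **the dimension of a common kernel does not change under a field extension** -/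
theorem ter_finrank_terKer_baseChange (fam : I → Module.End ℤ L) (c : I → k) :
    Module.finrank k' ↥(terKer k' fam (fun i => algebraMap k k' (c i))) =
      Module.finrank k ↥(terKer k fam c) := by
  set e := TensorProduct.AlgebraTensorModule.cancelBaseChange ℤ k k' k' L with he
  have h1 : terKer k' fam (fun i => algebraMap k k' (c i)) =
      Submodule.map (e : k' ⊗[k] (k ⊗[ℤ] L) →ₗ[k'] k' ⊗[ℤ] L)
        (⨅ i, LinearMap.ker (((fam i).baseChange k -
          c i • (1 : Module.End k (k ⊗[ℤ] L))).baseChange k')) := by
    ext v
    simp only [terKer, Submodule.mem_iInf, LinearMap.mem_ker, Submodule.mem_map,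
      LinearEquiv.coe_coe]
    constructor
    · intro hv
      refine ⟨e.symm v, fun i => ?_, e.apply_symm_apply v⟩
      apply e.injective
      rw [he, ter_cancelBaseChange_intertwine, ← he, e.apply_symm_apply, map_zero]
      exact hv i
    · rintro ⟨z, hz, rfl⟩ i
      rw [he, ← ter_cancelBaseChange_intertwine, hz i, map_zero]
  rw [h1, LinearEquiv.finrank_map_eq]
  exact ter_finrank_iInf_ker_baseChange _

end TerKer

end Fermat.Agent.T1
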