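/-
T1-D WP-M, helper8: **existence and uniqueness of eigenvectors from the `q`-expansion pairing**.

`V` a finite-dimensional space over a field `K` with an action `act : 𝕋 →+* End_K V` of a commutative
ring and a functional `a1 : V → K` ("first `q`-coefficient") such that `f = 0` as soon as
`a1 (t f) = 0` for all `t` (the `q`-expansion principle, `a_n(f) = a_1(T_n f)`).  Let `lam : 𝕋 →+* K`
be a ring homomorphism which respects the `K`-linear relations between the operators `act t`.  Then
there is a unique `f` with `a1 f = 1` and `t f = lam t • f` for all `t` (`ter_exists_eigenvector`,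
`ter_eigen_eq_smul`): the space `V` is the `K`-dual of the algebra generated by `𝕋`.
-/
import Mathlib

set_option autoImplicit false
set_option linter.style.haveILetI false
set_option linter.unusedSectionVars false

open scoped TensorProduct

namespace Fermat.Agent.T1

section Eigen

variable {K : Type*} [Field K] {V : Type*} [AddCommGroup V] [Module K V]
  {𝕋 : Type*} [CommRing 𝕋] (act : 𝕋 →+* Module.End K V) (a1 : V →ₗ[K] K)

/-- the operators `Σ c_t • act t` commute with the `act s` -/
theorem ter_linearCombination_comm (c : 𝕋 →₀ K) (s : 𝕋) :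
    act s * Finsupp.linearCombination K (fun t => act t) c =
      Finsupp.linearCombination K (fun t => act t) c * act s := by
  induction c using Finsupp.induction_linear with
  | zero => simp
  | add c₁ c₂ h₁ h₂ => rw [map_add, mul_add, add_mul, h₁, h₂]
  | single t a =>
    rw [Finsupp.linearCombination_single, mul_smul_comm, smul_mul_assoc, ← map_mul, ← map_mul,
      mul_comm]

/-- **existence of the normalised eigenvector** -/
theorem ter_exists_eigenvector [FiniteDimensional K V] (hsep : ∀ f, (∀ t, a1 (act t f) = 0) → f = 0) (lam : 𝕋 →+* K)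
    (hext : ∀ c : 𝕋 →₀ K, Finsupp.linearCombination K (fun t => act t) c = 0 →
      Finsupp.linearCombination K (fun t => lam t) c = 0) :
    ∃ f : V, a1 f = 1 ∧ ∀ t, act t f = lam t • f := by
  classical
  -- the pairing `(c, f) ↦ Σ c_t a1 (act t f)`
  let B : (𝕋 →₀ K) →ₗ[K] Module.Dual K V :=
    Finsupp.linearCombination K (fun t => a1 ∘ₗ act t)
  have hB : ∀ c f, B c f = a1 (Finsupp.linearCombination K (fun t => act t) c f) := by
    intro c f
    induction c using Finsupp.induction_linear with
    | zero => simp
    | add c₁ c₂ h₁ h₂ =>
      rw [map_add, LinearMap.add_apply, h₁, h₂, map_add, LinearMap.add_apply, map_add]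
    | single t a =>
      simp only [B, Finsupp.linearCombination_single, LinearMap.smul_apply, LinearMap.comp_apply,
        map_smul]
  let G : V →ₗ[K] Module.Dual K (𝕋 →₀ K) := B.flip
  let lamLin : Module.Dual K (𝕋 →₀ K) := Finsupp.linearCombination K (fun t => lam t)
  have hmem : lamLin ∈ LinearMap.range G := by
    haveI : FiniteDimensional K ↥(LinearMap.range G) := LinearMap.finiteDimensional_range G
    rw [← Subspace.dualCoannihilator_dualAnnihilator_eq (W := LinearMap.range G),
      Submodule.mem_dualAnnihilator]
    intro c hc
    rw [Submodule.mem_dualCoannihilator] at hc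
    apply hext
    -- the operator `Σ c_t • act t` vanishes
    refine LinearMap.ext fun f => hsep _ fun s => ?_
    rw [← Module.End.mul_apply, ter_linearCombination_comm,
      Module.End.mul_apply, ← hB]
    exact hc (G (act s f)) ⟨_, rfl⟩
  obtain ⟨f, hf⟩ := hmem
  have hf' : ∀ t, a1 (act t f) = lam t := by
    intro t
    have h1 := LinearMap.congr_fun hf (Finsupp.single t 1)
    simpa [G, B, lamLin, Finsupp.linearCombination_single] using h1
  refine ⟨f, ?_, fun s => ?_⟩
  · have := hf' 1
    rwa [map_one, map_one, Module.End.one_apply] at this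
  · rw [← sub_eq_zero]
    refine hsep _ fun t => ?_
    rw [map_sub, map_sub, map_smul, map_smul, ← Module.End.mul_apply, ← map_mul, hf', hf', map_mul,
      smul_eq_mul]
    ring

/-- **uniqueness**: an eigenvector is determined by its first coefficient -/
theorem ter_eigen_eq_smul (hsep : ∀ f, (∀ t, a1 (act t f) = 0) → f = 0) (lam : 𝕋 → K)
    {f₀ f : V} (h₀ : a1 f₀ = 1) (hf₀ : ∀ t, act t f₀ = lam t • f₀)
    (hf : ∀ t, act t f = lam t • f) : f = a1 f • f₀ := by
  rw [← sub_eq_zero]
  refine hsep _ fun t => ?_
  rw [map_sub, map_smul, hf, hf₀, map_sub, map_smul, map_smul, map_smul, h₀]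
  simp only [smul_eq_mul]
  ring

end Eigen

end Fermat.Agent.T1
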