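/-
T1-D WP-M, helper8: **multiplicity two over the field of definition of the period isomorphism**.

`TerMultData F V 𝕋 L` : the abstract Eichler–Shimura package: a finite-dimensional `F`-space `V` (cusp
forms, `F = ℂ`) with a faithful action of the commutative ring `𝕋`, the first-coefficient functional
`a1` satisfying the `q`-expansion principle, a lattice `L` with an action `heckeL` of `𝕋`, and a
`𝕋`-equivariant isomorphism `Φ : V × V ≃ F ⊗[ℤ] L`.  The involution is an endomorphism `wL` of `L`
which `Φ` turns into `(f, g) ↦ (f, -g)`.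

* `TerMultData.hext` : `F`-linear relations between the operators `act t` are respected by every
  additive map `𝕋 → F` (the lattice is a faithful `𝕋`-module and `F` is flat over `ℤ`).
* `TerMultData.finrank_terKer` : every eigenspace of `𝕋` in `F ⊗[ℤ] L` is two-dimensional.
* `TerMultData.terKer_sign_ne_bot` : it contains eigenvectors of `wL` for both signs.
-/
import Fermat.Agent.Lib.T1.Asm.Res.MultBaseChange
import Fermat.Agent.Lib.T1.Asm.Res.MultEigen

set_option autoImplicit false
set_option linter.style.haveILetI false
set_option linter.unusedSectionVars false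

open scoped TensorProduct

namespace Fermat.Agent.T1

/-- the abstract Eichler–Shimura package -/
structure TerMultData (F : Type) [Field F] (V : Type) [AddCommGroup V] [Module F V]
    (𝕋 : Type) [CommRing 𝕋] (L : Type) [AddCommGroup L] where
  /-- the action on cusp forms -/
  act : 𝕋 →+* Module.End F V
  act_injective : Function.Injective act
  /-- the first `q`-coefficient -/
  a1 : V →ₗ[F] F
  sep : ∀ f, (∀ t, a1 (act t f) = 0) → f = 0
  /-- the action on the lattice -/
  heckeL : 𝕋 →+* Module.End ℤ L
  /-- the period isomorphism -/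
  Φ : (V × V) ≃ₗ[F] F ⊗[ℤ] L
  Φ_hecke : ∀ t f g, (heckeL t).baseChange F (Φ (f, g)) = Φ (act t f, act t g)

namespace TerMultData

variable {F : Type} [Field F] {V : Type} [AddCommGroup V] [Module F V]
  {𝕋 : Type} [CommRing 𝕋] {L : Type} [AddCommGroup L] (D : TerMultData F V 𝕋 L)

theorem heckeL_injective : Function.Injective D.heckeL := by
  rw [injective_iff_map_eq_zero]
  intro t ht
  apply D.act_injective
  rw [map_zero]
  refine LinearMap.ext fun f => ?_
  have h1 := D.Φ_hecke t f 0
  rw [ht, LinearMap.baseChange_zero, LinearMap.zero_apply] at h1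
  have h2 : (D.act t f, D.act t 0) = 0 := D.Φ.injective (by rw [← h1, map_zero])
  exact congrArg Prod.fst h2

/-- linear combinations of Hecke operators on the lattice side -/
theorem linearCombination_heckeL (c : 𝕋 →₀ F) (f g : V) :
    Finsupp.linearCombination F (fun t => (D.heckeL t).baseChange F) c (D.Φ (f, g)) =
      D.Φ (Finsupp.linearCombination F (fun t => D.act t) c f,
        Finsupp.linearCombination F (fun t => D.act t) c g) := by
  induction c using Finsupp.induction_linear with
  | zero =>
    simp only [map_zero, LinearMap.zero_apply]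
    exact (map_zero D.Φ).symm
  | add c₁ c₂ h₁ h₂ =>
    rw [map_add, LinearMap.add_apply, h₁, h₂, map_add, LinearMap.add_apply, LinearMap.add_apply,
      ← map_add, Prod.mk_add_mk]
  | single t a =>
    rw [Finsupp.linearCombination_single, Finsupp.linearCombination_single, LinearMap.smul_apply,
      D.Φ_hecke, LinearMap.smul_apply, LinearMap.smul_apply, ← map_smul, Prod.smul_mk]

variable [Module.Free ℤ L] [Module.Finite ℤ L] [CharZero F]

/-- **relations between the Hecke operators are defined over `ℤ`** -/
theorem hext (μ : 𝕋 →+ F) (c : 𝕋 →₀ F)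
    (hc : Finsupp.linearCombination F (fun t => D.act t) c = 0) :
    Finsupp.linearCombination F (fun t => μ t) c = 0 := by
  classical
  -- the relation on the lattice side
  have hcL : Finsupp.linearCombination F (fun t => (D.heckeL t).baseChange F) c = 0 := by
    refine LinearMap.ext fun v => ?_
    obtain ⟨⟨f, g⟩, rfl⟩ := D.Φ.surjective v
    rw [D.linearCombination_heckeL, hc, LinearMap.zero_apply, LinearMap.zero_apply,
      LinearMap.zero_apply]
    exact map_zero D.Φ
  -- the element `ξ = Σ c_t ⊗ t`
  set ξ : F ⊗[ℤ] 𝕋 := Finsupp.linearCombination F (fun t => (1 : F) ⊗ₜ[ℤ] t) c with hξ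
  -- evaluation on a basis of the lattice
  let b := Module.Free.chooseBasis ℤ L
  let ev : 𝕋 →ₗ[ℤ] (Module.Free.ChooseBasisIndex ℤ L → L) :=
    { toFun := fun t i => D.heckeL t (b i)
      map_add' := fun s t => by ext i; simp
      map_smul' := fun n t => by ext i; simp }
  have hev : Function.Injective ev := by
    rw [← LinearMap.ker_eq_bot, LinearMap.ker_eq_bot']
    intro t ht
    apply D.heckeL_injective
    rw [map_zero]
    refine b.ext fun i => ?_
    exact congrFun ht i
  have hevF : Function.Injective (ev.baseChange F) :=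
    Module.Flat.lTensor_preserves_injective_linearMap ev hev
  have hξ0 : ξ = 0 := by
    apply hevF
    apply (TensorProduct.piRight ℤ F F (fun _ : Module.Free.ChooseBasisIndex ℤ L => L)).injective
    rw [map_zero, map_zero]
    ext i
    have h1 : (TensorProduct.piRight ℤ F F (fun _ : Module.Free.ChooseBasisIndex ℤ L => L))
        (ev.baseChange F ξ) i =
        Finsupp.linearCombination F (fun t => (D.heckeL t).baseChange F) c ((1 : F) ⊗ₜ[ℤ] b i) := by
      rw [hξ]
      generalize c = c'
      induction c' using Finsupp.induction_linear with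
      | zero => simp
      | add c₁ c₂ h₁ h₂ =>
        rw [map_add, map_add, map_add, Pi.add_apply, h₁, h₂, map_add, LinearMap.add_apply]
      | single t a =>
        rw [Finsupp.linearCombination_single, Finsupp.linearCombination_single, map_smul,
          map_smul, Pi.smul_apply, LinearMap.smul_apply, LinearMap.baseChange_tmul,
          LinearMap.baseChange_tmul, TensorProduct.piRight_apply,
          TensorProduct.piRightHom_tmul]
        rfl
    rw [h1, hcL, LinearMap.zero_apply, Pi.zero_apply]
  -- apply the linear extension of `μ`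
  have h2 : LinearMap.liftBaseChange F (μ.toIntLinearMap) ξ =
      Finsupp.linearCombination F (fun t => μ t) c := by
    rw [hξ, Finsupp.apply_linearCombination]
    congr 1
    ext t
    simp
  rw [← h2, hξ0, map_zero]

include D in
/-- the space of cusp forms is finite-dimensional -/
theorem finiteDimensional : FiniteDimensional F V := by
  haveI : Module.Finite F (F ⊗[ℤ] L) := Module.Finite.base_change ℤ F L
  haveI : Module.Finite F (V × V) := Module.Finite.equiv D.Φ.symm
  exact Module.Finite.of_surjective (LinearMap.fst F V V) LinearMap.fst_surjective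

/-- **the normalised eigenform of an eigencharacter** -/
theorem exists_eigenform (lam : 𝕋 →+* F) :
    ∃ f : V, D.a1 f = 1 ∧ ∀ t, D.act t f = lam t • f :=
  haveI := D.finiteDimensional
  ter_exists_eigenvector D.act D.a1 D.sep lam fun c hc => D.hext lam.toAddMonoidHom c hc

/-- the eigenspace of the lattice is the image of `(x, y) ↦ Φ (x f, y f)` -/
theorem mem_terKer_iff (lam : 𝕋 →+* F) {f₀ : V} (h₀ : D.a1 f₀ = 1)
    (hf₀ : ∀ t, D.act t f₀ = lam t • f₀) (v : F ⊗[ℤ] L) :
    v ∈ terKer F (fun t => D.heckeL t) (fun t => lam t) ↔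
      ∃ x y : F, v = D.Φ (x • f₀, y • f₀) := by
  rw [mem_terKer]
  constructor
  · intro hv
    obtain ⟨⟨f, g⟩, rfl⟩ := D.Φ.surjective v
    have h1 : ∀ t, D.act t f = lam t • f ∧ D.act t g = lam t • g := by
      intro t
      have h2 := hv t
      rw [D.Φ_hecke, ← map_smul, Prod.smul_mk] at h2
      have h3 := D.Φ.injective h2
      exact ⟨congrArg Prod.fst h3, congrArg Prod.snd h3⟩
    refine ⟨D.a1 f, D.a1 g, ?_⟩
    rw [← ter_eigen_eq_smul D.act D.a1 D.sep (fun t => lam t) h₀ hf₀ fun t => (h1 t).1,
      ← ter_eigen_eq_smul D.act D.a1 D.sep (fun t => lam t) h₀ hf₀ fun t => (h1 t).2]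
  · rintro ⟨x, y, rfl⟩ t
    rw [D.Φ_hecke, map_smul, map_smul, hf₀, ← map_smul, Prod.smul_mk, smul_comm x, smul_comm y]

/-- **multiplicity two** over the field of definition of the period isomorphism -/
theorem finrank_terKer (lam : 𝕋 →+* F) :
    Module.finrank F ↥(terKer F (fun t => D.heckeL t) (fun t => lam t)) = 2 := by
  obtain ⟨f₀, h₀, hf₀⟩ := D.exists_eigenform lam
  have hne : f₀ ≠ 0 := by
    rintro rfl
    rw [map_zero] at h₀
    exact zero_ne_one h₀
  let j : (F × F) →ₗ[F] F ⊗[ℤ] L :=
    D.Φ.toLinearMap ∘ₗ (LinearMap.prodMap (LinearMap.toSpanSingleton F V f₀)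
      (LinearMap.toSpanSingleton F V f₀))
  have hj : ∀ x y : F, j (x, y) = D.Φ (x • f₀, y • f₀) := fun x y => rfl
  have hjinj : Function.Injective j := by
    rw [← LinearMap.ker_eq_bot, LinearMap.ker_eq_bot']
    rintro ⟨x, y⟩ hxy
    rw [hj] at hxy
    have h1 : (x • f₀, y • f₀) = 0 := D.Φ.injective (by rw [hxy, map_zero])
    have hx : x • f₀ = 0 := congrArg Prod.fst h1
    have hy : y • f₀ = 0 := congrArg Prod.snd h1
    rw [smul_eq_zero] at hx hy
    rw [Prod.mk_eq_zero]
    exact ⟨hx.resolve_right hne, hy.resolve_right hne⟩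
  have hrange : terKer F (fun t => D.heckeL t) (fun t => lam t) = LinearMap.range j := by
    ext v
    rw [D.mem_terKer_iff lam h₀ hf₀, LinearMap.mem_range]
    constructor
    · rintro ⟨x, y, rfl⟩
      exact ⟨(x, y), hj x y⟩
    · rintro ⟨⟨x, y⟩, rfl⟩
      exact ⟨x, y, hj x y⟩
  rw [hrange, LinearMap.finrank_range_of_inj hjinj, Module.finrank_prod, Module.finrank_self]

/-- the family of operators: the involution and the Hecke operators -/
def famW (wL : Module.End ℤ L) : Option 𝕋 → Module.End ℤ L :=
  fun o => o.elim wL fun t => D.heckeL t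

/-- **both signs of the involution occur in every eigenspace** (over the field of definition of the
period isomorphism) -/
theorem terKer_sign_ne_bot (wL : Module.End ℤ L)
    (hw : ∀ f g, wL.baseChange F (D.Φ (f, g)) = D.Φ (f, -g)) (lam : 𝕋 →+* F) {ε : ℤ}
    (hε : ε = 1 ∨ ε = -1) :
    terKer F (D.famW wL) (fun o => lam (o.elim (ε : 𝕋) id)) ≠ ⊥ := by
  obtain ⟨f₀, h₀, hf₀⟩ := D.exists_eigenform lam
  have hne : f₀ ≠ 0 := by
    rintro rfl
    rw [map_zero] at h₀
    exact zero_ne_one h₀
  rw [Submodule.ne_bot_iff]
  rcases hε with rfl | rfl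
  · refine ⟨D.Φ (f₀, 0), ?_, ?_⟩
    · rw [mem_terKer]
      rintro (_ | t)
      · simp only [famW, Option.elim_none]
        rw [hw, neg_zero, Int.cast_one, map_one, one_smul]
      · simp only [famW, Option.elim_some, id]
        rw [D.Φ_hecke, hf₀, map_zero, ← map_smul, Prod.smul_mk, smul_zero]
    · intro h
      have h1 : (f₀, (0 : V)) = 0 := D.Φ.injective (by rw [h, map_zero])
      exact hne (congrArg Prod.fst h1)
  · refine ⟨D.Φ (0, f₀), ?_, ?_⟩
    · rw [mem_terKer]
      rintro (_ | t)
      · simp only [famW, Option.elim_none]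
        rw [hw, Int.cast_neg, Int.cast_one, map_neg, map_one, neg_one_smul, ← map_neg,
          Prod.neg_mk, neg_zero]
      · simp only [famW, Option.elim_some, id]
        rw [D.Φ_hecke, hf₀, map_zero, ← map_smul, Prod.smul_mk, smul_zero]
    · intro h
      have h1 : ((0 : V), f₀) = 0 := D.Φ.injective (by rw [h, map_zero])
      exact hne (congrArg Prod.snd h1)

end TerMultData

end Fermat.Agent.T1
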