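/-
T1-D WP-M, helper8: **multiplicity two and the involution over every field of characteristic zero**.

For the abstract Eichler–Shimura package `D : TerMultData F V 𝕋 L` over an algebraically closed field
`F` of characteristic zero (`F = ℂ`), with `𝕋` integral over `ℤ`, and every field `K` of characteristic
zero with a ring homomorphism `lam : 𝕋 →+* K`:

* `TerMultData.finrank_teEigenL` : the eigenspace `teEigenL K heckeL lam ≤ K ⊗[ℤ] L` has dimension 2;
* `TerMultData.exists_not_scalar` : the involution `wL` (and `-wL`) does not act as a scalar on it.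

(The values of `lam` are algebraic numbers; the algebraic closure of `ℚ` in `K` embeds into `F`, and
the dimension of a common kernel does not change under extension of the base field.)
-/
import Fermat.Agent.Lib.T1.Asm.Res.MultLattice
import Fermat.Agent.Lib.T1.Asm.Bridge

set_option autoImplicit false
set_option linter.style.haveILetI false
set_option linter.unusedSectionVars false

open scoped TensorProduct

namespace Fermat.Agent.T1

section Transfer

variable {𝕋 : Type} [CommRing 𝕋] [Algebra.IsIntegral ℤ 𝕋] {L : Type} [AddCommGroup L]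

/-- **transfer of eigencharacters to an algebraically closed field**, preserving the dimensions of
all common kernels -/
theorem ter_exists_transfer (F : Type) [Field F] [IsAlgClosed F] [CharZero F]
    {K : Type} [Field K] [CharZero K] (lam : 𝕋 →+* K) :
    ∃ lamF : 𝕋 →+* F, ∀ {I : Type} (fam : I → Module.End ℤ L) (τ : I → 𝕋),
      Module.finrank K ↥(terKer K fam (fun i => lam (τ i))) =
        Module.finrank F ↥(terKer F fam (fun i => lamF (τ i))) := by
  classical
  let K₀ : IntermediateField ℚ K := algebraicClosure ℚ K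
  have hmem : ∀ t, lam t ∈ K₀ := by
    intro t
    have h1 : IsIntegral ℤ (lam t) := map_isIntegral_int lam (Algebra.IsIntegral.isIntegral t)
    exact mem_algebraicClosure_iff'.mpr h1.tower_top
  let lam₀ : 𝕋 →+* ↥K₀ := lam.codRestrict K₀ hmem
  haveI : Algebra.IsAlgebraic ℚ ↥K₀ := algebraicClosure.isAlgebraic ℚ K
  let σ : ↥K₀ →ₐ[ℚ] F := IsAlgClosed.lift
  refine ⟨σ.toRingHom.comp lam₀, fun {I} fam τ => ?_⟩
  have h1 := ter_finrank_terKer_baseChange (k := ↥K₀) (k' := K) fam (fun i => lam₀ (τ i))
  letI : Algebra ↥K₀ F := σ.toRingHom.toAlgebra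
  have h2 := ter_finrank_terKer_baseChange (k := ↥K₀) (k' := F) fam (fun i => lam₀ (τ i))
  exact h1.trans h2.symm

end Transfer

namespace TerMultData

variable {F : Type} [Field F] [IsAlgClosed F] [CharZero F] {V : Type} [AddCommGroup V] [Module F V]
  {𝕋 : Type} [CommRing 𝕋] [Algebra.IsIntegral ℤ 𝕋] {L : Type}
  [AddCommGroup L] [Module.Free ℤ L] [Module.Finite ℤ L] (D : TerMultData F V 𝕋 L)
  {K : Type} [Field K] [CharZero K] (lam : 𝕋 →+* K)

/-- **multiplicity two over every field of characteristic zero** -/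
theorem finrank_teEigenL :
    Module.finrank K ↥(teEigenL K D.heckeL (fun t => lam t)) = 2 := by
  obtain ⟨lamF, h⟩ := ter_exists_transfer (L := L) F lam
  have h1 := h (fun t => D.heckeL t) id
  exact h1.trans (D.finrank_terKer lamF)

variable (wL : Module.End ℤ L) (hw : ∀ f g, wL.baseChange F (D.Φ (f, g)) = D.Φ (f, -g))

include hw in
/-- both signs of the involution occur in every eigenspace -/
theorem exists_sign {ε : ℤ} (hε : ε = 1 ∨ ε = -1) :
    ∃ v ∈ teEigenL K D.heckeL (fun t => lam t), v ≠ 0 ∧ wL.baseChange K v = (ε : K) • v := by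
  obtain ⟨lamF, h⟩ := ter_exists_transfer (L := L) F lam
  have h1 := h (D.famW wL) (fun o => o.elim (ε : 𝕋) id)
  have h2 : terKer K (D.famW wL) (fun o => lam (o.elim (ε : 𝕋) id)) ≠ ⊥ := by
    intro hbot
    rw [hbot, finrank_bot] at h1
    have h3 := D.terKer_sign_ne_bot wL hw lamF hε
    haveI : Module.Finite F (F ⊗[ℤ] L) := Module.Finite.base_change ℤ F L
    exact h3 (Submodule.finrank_eq_zero.mp h1.symm)
  obtain ⟨v, hv, hv0⟩ := (Submodule.ne_bot_iff _).mp h2
  rw [mem_terKer] at hv
  refine ⟨v, mem_terKer.mpr fun t => hv (some t), hv0, ?_⟩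
  have := hv none
  simpa [famW] using this

include hw in
/-- **the involution is not a scalar on any eigenspace** -/
theorem exists_not_scalar :
    ∃ v ∈ teEigenL K D.heckeL (fun t => lam t), ∀ z : K, wL.baseChange K v ≠ z • v := by
  obtain ⟨v₁, hv₁, hne₁, hw₁⟩ := D.exists_sign lam wL hw (ε := 1) (Or.inl rfl)
  obtain ⟨v₂, hv₂, hne₂, hw₂⟩ := D.exists_sign lam wL hw (ε := -1) (Or.inr rfl)
  rw [Int.cast_one, one_smul] at hw₁
  rw [Int.cast_neg, Int.cast_one, neg_one_smul] at hw₂
  refine ⟨v₁ + v₂, Submodule.add_mem _ hv₁ hv₂, fun z hz => ?_⟩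
  rw [map_add, hw₁, hw₂, smul_add] at hz
  -- `(1 - z) v₁ = (1 + z) v₂`
  have h1 : (1 - z) • v₁ = (1 + z) • v₂ := by
    rw [sub_smul, add_smul, one_smul, one_smul]
    have h0 : v₁ - z • v₁ - (v₂ + z • v₂) = v₁ + -v₂ - (z • v₁ + z • v₂) := by abel
    rw [← sub_eq_zero, h0, hz, sub_self]
  -- apply the involution
  have h2 : (1 - z) • v₁ = -((1 + z) • v₂) := by
    have := congrArg (wL.baseChange K) h1
    rwa [map_smul, map_smul, hw₁, hw₂, smul_neg] at this
  have h3 : (1 + z) • v₂ = 0 := by
    have h4 : (1 + z) • v₂ = -((1 + z) • v₂) := h1.symm.trans h2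
    have h5 : (2 : K) • ((1 + z) • v₂) = 0 := by
      rw [two_smul]
      nth_rewrite 1 [h4]
      exact neg_add_cancel _
    exact (smul_eq_zero.mp h5).resolve_left two_ne_zero
  have h6 : (1 - z) • v₁ = 0 := by rw [h1, h3]
  have hz1 : 1 + z = 0 := (smul_eq_zero.mp h3).resolve_right hne₂
  have hz2 : 1 - z = 0 := (smul_eq_zero.mp h6).resolve_right hne₁
  have : (2 : K) = 0 := by linear_combination hz1 + hz2
  exact two_ne_zero this

include hw in
/-- the same for the negative of the involution -/
theorem exists_not_scalar_neg :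
    ∃ v ∈ teEigenL K D.heckeL (fun t => lam t), ∀ z : K, (-wL).baseChange K v ≠ z • v := by
  obtain ⟨v, hv, h⟩ := D.exists_not_scalar lam wL hw
  refine ⟨v, hv, fun z hz => h (-z) ?_⟩
  rw [LinearMap.baseChange_neg, LinearMap.neg_apply] at hz
  rw [neg_smul, ← hz, neg_neg]

end TerMultData

end Fermat.Agent.T1
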