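/-
T1-D WP-M, helper8: **multiplicity two for the Hecke algebra of `S₂(Γ₀(N))`**.

Input: a free `ℤ`-module `L` of finite rank with an action `heckeL` of `𝕋 = heckeAlgebra N 2 ∅`, an
endomorphism `wL`, and a `𝕋`-equivariant isomorphism `Φ : S₂ × S₂ ≃ ℂ ⊗[ℤ] L` (Eichler–Shimura) under
which `wL` becomes `(f, g) ↦ (f, -g)`.  Output, for every field `K` of characteristic zero and every
ring homomorphism `lam : 𝕋 →+* K`:

* `ter_finrank_eigen` : `finrank K (teEigenL K heckeL lam) = 2`;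
* `ter_exists_not_scalar`, `ter_exists_not_scalar_neg` : `wL` (resp. `-wL`) is not a scalar on it.

The cusp form side (`q`-expansion principle `a_n(f) = a_1(T_n f)`, finiteness of `𝕋` over `ℤ`) is
supplied here: `terCuspData`.
-/
import Fermat.Agent.Lib.T1.Asm.Res.Mult
import Fermat.Agent.Lib.S23.HeckeTn
import Fermat.Agent.Lib.S22.HeckeFinite

set_option autoImplicit false
set_option linter.style.haveILetI false
set_option linter.unusedSectionVars false

open scoped TensorProduct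
open CuspForm ModularFormClass Fermat.Agent.Lib.Helper8

namespace Fermat.Agent.T1

local notation "Γ₀(" N ")" => CongruenceSubgroup.Gamma0 N

variable (N : ℕ) [NeZero N]

/-- the first `q`-coefficient as a linear functional -/
noncomputable def terA1 : CuspForm Γ₀(N) 2 →ₗ[ℂ] ℂ where
  toFun f := qCoeff ⇑f 1
  map_add' f g := h8_qCoeff_add f g 1
  map_smul' c f := by
    rw [h8_qCoeff_smul, RingHom.id_apply, smul_eq_mul]

theorem terA1_apply (f : CuspForm Γ₀(N) 2) : terA1 N f = qCoeff ⇑f 1 := rfl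

/-- the `q`-expansion principle: a cusp form is determined by the functional `t ↦ a₁(t f)` on the
Hecke algebra -/
theorem ter_eq_zero_of_a1 (f : CuspForm Γ₀(N) 2)
    (h : ∀ t : heckeAlgebra N 2 (∅ : Set ℕ),
      terA1 N ((t : Module.End ℂ (CuspForm Γ₀(N) 2)) f) = 0) : f = 0 := by
  apply h8_eq_zero_of_qCoeff
  intro n
  rcases Nat.eq_zero_or_pos n with rfl | hn
  · exact h8_qCoeff_zero_eq f
  · obtain ⟨T, hT, hT'⟩ := Fermat.Agent.S23Lib.exists_hecke_coeff (N := N) n hn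
    rw [← hT' f]
    exact h ⟨T, hT⟩

variable {N} {L : Type} [AddCommGroup L]

/-- the abstract Eichler–Shimura package for `S₂(Γ₀(N))` -/
noncomputable def terCuspData (heckeL : heckeAlgebra N 2 (∅ : Set ℕ) →+* Module.End ℤ L)
    (Φ : (CuspForm Γ₀(N) 2 × CuspForm Γ₀(N) 2) ≃ₗ[ℂ] ℂ ⊗[ℤ] L)
    (hΦ : ∀ (t : heckeAlgebra N 2 (∅ : Set ℕ)) (f g : CuspForm Γ₀(N) 2),
      (heckeL t).baseChange ℂ (Φ (f, g)) =
        Φ ((t : Module.End ℂ (CuspForm Γ₀(N) 2)) f, (t : Module.End ℂ (CuspForm Γ₀(N) 2)) g)) :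
    TerMultData ℂ (CuspForm Γ₀(N) 2) (heckeAlgebra N 2 (∅ : Set ℕ)) L where
  act := (heckeAlgebra N 2 (∅ : Set ℕ)).val.toRingHom
  act_injective := Subtype.val_injective
  a1 := terA1 N
  sep := ter_eq_zero_of_a1 N
  heckeL := heckeL
  Φ := Φ
  Φ_hecke := hΦ

variable [Module.Free ℤ L] [Module.Finite ℤ L]
  (heckeL : heckeAlgebra N 2 (∅ : Set ℕ) →+* Module.End ℤ L)
  (Φ : (CuspForm Γ₀(N) 2 × CuspForm Γ₀(N) 2) ≃ₗ[ℂ] ℂ ⊗[ℤ] L)
  (hΦ : ∀ (t : heckeAlgebra N 2 (∅ : Set ℕ)) (f g : CuspForm Γ₀(N) 2),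
      (heckeL t).baseChange ℂ (Φ (f, g)) =
        Φ ((t : Module.End ℂ (CuspForm Γ₀(N) 2)) f, (t : Module.End ℂ (CuspForm Γ₀(N) 2)) g))
  {K : Type} [Field K] [CharZero K] (lam : heckeAlgebra N 2 (∅ : Set ℕ) →+* K)

theorem ter_isIntegral_heckeAlgebra : Algebra.IsIntegral ℤ (heckeAlgebra N 2 (∅ : Set ℕ)) :=
  haveI : Module.Finite ℤ (heckeAlgebra N 2 (∅ : Set ℕ)) :=
    Fermat.Agent.S22Lib.moduleFinite_heckeAlgebra N 2 _
  Algebra.IsIntegral.of_finite ℤ _

include hΦ in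
/-- **multiplicity two**: every eigenspace of the Hecke algebra in `K ⊗[ℤ] L` is two-dimensional -/
theorem ter_finrank_eigen :
    Module.finrank K ↥(teEigenL K heckeL (fun t => lam t)) = 2 :=
  haveI := ter_isIntegral_heckeAlgebra (N := N)
  (terCuspData heckeL Φ hΦ).finrank_teEigenL lam

variable (wL : Module.End ℤ L)
  (hw : ∀ f g : CuspForm Γ₀(N) 2, wL.baseChange ℂ (Φ (f, g)) = Φ (f, -g))

include hΦ hw in
/-- **the involution is not a scalar on any eigenspace** -/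
theorem ter_exists_not_scalar :
    ∃ v ∈ teEigenL K heckeL (fun t => lam t), ∀ z : K, wL.baseChange K v ≠ z • v :=
  haveI := ter_isIntegral_heckeAlgebra (N := N)
  (terCuspData heckeL Φ hΦ).exists_not_scalar lam wL hw

include hΦ hw in
/-- the same for the negative of the involution (the action of complex conjugation) -/
theorem ter_exists_not_scalar_neg :
    ∃ v ∈ teEigenL K heckeL (fun t => lam t), ∀ z : K, (-wL).baseChange K v ≠ z • v :=
  haveI := ter_isIntegral_heckeAlgebra (N := N)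
  (terCuspData heckeL Φ hΦ).exists_not_scalar_neg lam wL hw

section Padic

variable {p : ℕ} [Fact p.Prime] {T : Type} [AddCommGroup T] [Module ℤ_[p] T]
  (e : ℤ_[p] ⊗[ℤ] L ≃ₗ[ℤ_[p]] T)
  (hecke : heckeAlgebra N 2 (∅ : Set ℕ) →+* Module.End ℤ_[p] T)
  (he : ∀ t x, e ((heckeL t).baseChange ℤ_[p] x) = hecke t (e x))
  {𝒪 : Type} [CommRing 𝒪] [IsDomain 𝒪] [CharZero 𝒪] [Algebra ℤ_[p] 𝒪]
  (lamO : heckeAlgebra N 2 (∅ : Set ℕ) →+* 𝒪)

include hΦ he in
/-- **(H5)**: the eigen-lattice of the `p`-adic Tate module has rank two -/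
theorem ter_finrank_teEigen : Module.finrank 𝒪 ↥(teEigen hecke lamO) = 2 := by
  haveI : CharZero (FractionRing 𝒪) :=
    charZero_of_injective_algebraMap (IsFractionRing.injective 𝒪 (FractionRing 𝒪))
  rw [te_finrank_teEigen_eq e (FractionRing 𝒪) heckeL hecke he lamO]
  exact ter_finrank_eigen heckeL Φ hΦ ((algebraMap 𝒪 (FractionRing 𝒪)).comp lamO)

include hΦ he hw in
/-- **(H6)**: an endomorphism of the Tate module inducing the involution `wL` of the lattice is not a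
scalar on the eigen-lattice -/
theorem ter_exists_not_scalar_teEigen (w : Module.End ℤ_[p] T)
    (hwT : ∀ x, e (wL.baseChange ℤ_[p] x) = w (e x)) :
    ∃ v ∈ teEigen hecke lamO, ∀ z : 𝒪, w.baseChange 𝒪 v ≠ z • v := by
  haveI : CharZero (FractionRing 𝒪) :=
    charZero_of_injective_algebraMap (IsFractionRing.injective 𝒪 (FractionRing 𝒪))
  exact te_exists_not_scalar_teEigen e (FractionRing 𝒪) heckeL hecke he lamO wL w hwT
    (ter_exists_not_scalar heckeL Φ hΦ ((algebraMap 𝒪 (FractionRing 𝒪)).comp lamO) wL hw)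

include hΦ he hw in
/-- **(H6)** for an endomorphism inducing `-wL` (complex conjugation) -/
theorem ter_exists_not_scalar_teEigen_neg (w : Module.End ℤ_[p] T)
    (hwT : ∀ x, e ((-wL).baseChange ℤ_[p] x) = w (e x)) :
    ∃ v ∈ teEigen hecke lamO, ∀ z : 𝒪, w.baseChange 𝒪 v ≠ z • v := by
  haveI : CharZero (FractionRing 𝒪) :=
    charZero_of_injective_algebraMap (IsFractionRing.injective 𝒪 (FractionRing 𝒪))
  exact te_exists_not_scalar_teEigen e (FractionRing 𝒪) heckeL hecke he lamO (-wL) w hwT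
    (ter_exists_not_scalar_neg heckeL Φ hΦ ((algebraMap 𝒪 (FractionRing 𝒪)).comp lamO) wL hw)

end Padic

end Fermat.Agent.T1
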