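/-
T1-E (E-d), helper8: descent of two-dimensional representations to a finite subfield, basic lemmas.

* `ter_mem_range_of_pow_card` : an element of an extension `F` of a finite field `k₀` which is fixed
  by `x ↦ x ^ |k₀|` lies in `k₀`.
* `ter_subgroup_union` : a group is not the union of two proper subgroups.
* `ter_trace_pow_mem`, `ter_det_pow_mem` : for a `2 × 2` matrix whose trace and determinant lie in a
  subring, all powers have this property.
-/
import Mathlib

set_option autoImplicit false
set_option linter.style.haveILetI false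

open Polynomial Matrix

namespace Fermat.Agent.T1

section FixedField

variable {k₀ F : Type*} [Field k₀] [Finite k₀] [Field F] [Algebra k₀ F]

/-- a finite set of at least `m` roots of `X ^ m - X` contains all roots -/
theorem ter_mem_of_pow_eq {F : Type*} [Field F] (m : ℕ) (hm : 1 < m) (S : Finset F)
    (hS : m ≤ S.card) (hroot : ∀ y ∈ S, y ^ m = y) (x : F) (hx : x ^ m = x) : x ∈ S := by
  classical
  set P : F[X] := X ^ m - X with hP
  have hP0 : P ≠ 0 := FiniteField.X_pow_card_sub_X_ne_zero F hm
  have hdeg : P.natDegree = m := FiniteField.X_pow_card_sub_X_natDegree_eq F hm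
  have hsub : S ⊆ P.roots.toFinset := by
    intro y hy
    rw [Multiset.mem_toFinset, mem_roots hP0, IsRoot.def, hP, eval_sub, eval_pow, eval_X,
      hroot y hy, sub_self]
  have hle : P.roots.toFinset.card ≤ S.card := by
    calc P.roots.toFinset.card ≤ Multiset.card P.roots := Multiset.toFinset_card_le _
      _ ≤ P.natDegree := card_roots' P
      _ = m := hdeg
      _ ≤ S.card := hS
  have heq := Finset.eq_of_subset_of_card_le hsub hle
  rw [heq, Multiset.mem_toFinset, mem_roots hP0, IsRoot.def, hP, eval_sub, eval_pow, eval_X, hx,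
    sub_self]

/-- the fixed points of `x ↦ x ^ |k₀|` in an extension of `k₀` are the elements of `k₀` -/
theorem ter_mem_range_of_pow_card (x : F) (hx : x ^ Nat.card k₀ = x) :
    ∃ a : k₀, algebraMap k₀ F a = x := by
  classical
  have : Fintype k₀ := Fintype.ofFinite k₀
  have hqF : Nat.card k₀ = Fintype.card k₀ := Nat.card_eq_fintype_card
  have h := ter_mem_of_pow_eq (Nat.card k₀) Finite.one_lt_card
    (Finset.univ.image (algebraMap k₀ F)) (by
      rw [Finset.card_image_of_injective _ (algebraMap k₀ F).injective, Finset.card_univ, hqF])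
    (by
      intro y hy
      rw [Finset.mem_image] at hy
      obtain ⟨a, -, rfl⟩ := hy
      rw [← map_pow, hqF, FiniteField.pow_card]) x hx
  rw [Finset.mem_image] at h
  obtain ⟨a, -, ha⟩ := h
  exact ⟨a, ha⟩

theorem ter_pow_card_algebraMap (a : k₀) :
    (algebraMap k₀ F a) ^ Nat.card k₀ = algebraMap k₀ F a := by
  classical
  have : Fintype k₀ := Fintype.ofFinite k₀
  rw [← map_pow, Nat.card_eq_fintype_card, FiniteField.pow_card]

/-- the elements fixed by `x ↦ x ^ |k₀|^2` are the `r + s a₀`, for any `a₀` fixed by this map which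
is not in `k₀` -/
theorem ter_exists_of_pow_card_sq (a₀ : F) (ha₀ : a₀ ^ (Nat.card k₀ ^ 2) = a₀)
    (hne : ¬ ∃ a : k₀, algebraMap k₀ F a = a₀) (x : F) (hx : x ^ (Nat.card k₀ ^ 2) = x) :
    ∃ r s : k₀, x = algebraMap k₀ F r + algebraMap k₀ F s * a₀ := by
  classical
  have : Fintype k₀ := Fintype.ofFinite k₀
  have hqF : Nat.card k₀ = Fintype.card k₀ := Nat.card_eq_fintype_card
  have hq1 : 1 < Nat.card k₀ := Finite.one_lt_card
  have hinj : Function.Injective
      (fun rs : k₀ × k₀ => algebraMap k₀ F rs.1 + algebraMap k₀ F rs.2 * a₀) := by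
    rintro ⟨r, s⟩ ⟨r', s'⟩ h
    simp only at h
    by_cases hs : s = s'
    · subst hs
      have : algebraMap k₀ F r = algebraMap k₀ F r' := by linear_combination h
      rw [(algebraMap k₀ F).injective this]
    · exfalso
      apply hne
      have hs' : algebraMap k₀ F (s - s') ≠ 0 := by
        rw [Ne, map_eq_zero_iff _ (algebraMap k₀ F).injective, sub_eq_zero]
        exact hs
      refine ⟨(r' - r) / (s - s'), ?_⟩
      rw [map_div₀, div_eq_iff hs', map_sub, map_sub]
      linear_combination -h
  have h := ter_mem_of_pow_eq (Nat.card k₀ ^ 2) (by nlinarith)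
    (Finset.univ.image (fun rs : k₀ × k₀ => algebraMap k₀ F rs.1 + algebraMap k₀ F rs.2 * a₀)) (by
      rw [Finset.card_image_of_injective _ hinj, Finset.card_univ, Fintype.card_prod, hqF, sq])
    (by
      intro y hy
      rw [Finset.mem_image] at hy
      obtain ⟨⟨r, s⟩, -, rfl⟩ := hy
      simp only
      have hch : ∃ p : ℕ, p.Prime ∧ CharP F p ∧ ∃ n : ℕ, Nat.card k₀ = p ^ n := by
        obtain ⟨p, hp⟩ := CharP.exists k₀
        haveI := hp
        obtain ⟨n, hpr, hn⟩ := FiniteField.card k₀ p
        haveI : Fact p.Prime := ⟨hpr⟩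
        exact ⟨p, hpr, charP_of_injective_algebraMap (algebraMap k₀ F).injective p, n, by
          rw [hqF, hn]⟩
      obtain ⟨p, hpr, hcp, n, hn⟩ := hch
      haveI : Fact p.Prime := ⟨hpr⟩
      haveI := hcp
      have hadd : ∀ u w : F, (u + w) ^ (Nat.card k₀ ^ 2) = u ^ (Nat.card k₀ ^ 2) +
          w ^ (Nat.card k₀ ^ 2) := by
        intro u w
        rw [hn, ← pow_mul]
        exact add_pow_char_pow u w p (n * 2)
      have hk : ∀ a : k₀, algebraMap k₀ F a ^ (Nat.card k₀ ^ 2) = algebraMap k₀ F a := by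
        intro a
        rw [sq, pow_mul, ter_pow_card_algebraMap, ter_pow_card_algebraMap]
      rw [hadd, mul_pow, hk, hk, ha₀]) x hx
  rw [Finset.mem_image] at h
  obtain ⟨⟨r, s⟩, -, hrs⟩ := h
  exact ⟨r, s, hrs.symm⟩

end FixedField

/-- a group is not the union of two proper subgroups -/
theorem ter_subgroup_union {G : Type*} [Group G] (H₁ H₂ : Subgroup G)
    (h : ∀ g : G, g ∈ H₁ ∨ g ∈ H₂) : (∀ g, g ∈ H₁) ∨ (∀ g, g ∈ H₂) := by
  by_contra hcon
  push Not at hcon
  obtain ⟨⟨g, hg⟩, ⟨g', hg'⟩⟩ := hcon
  have hg2 : g ∈ H₂ := (h g).resolve_left hg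
  have hg1' : g' ∈ H₁ := (h g').resolve_right hg'
  rcases h (g * g') with h1 | h2
  · exact hg (by simpa using H₁.mul_mem h1 (H₁.inv_mem hg1'))
  · exact hg' (by simpa using H₂.mul_mem (H₂.inv_mem hg2) h2)

section Powers

variable {R : Type*} [CommRing R]

/-- Cayley–Hamilton for `2 × 2` matrices -/
theorem ter_sq_eq (M : Matrix (Fin 2) (Fin 2) R) :
    M * M = M.trace • M - M.det • (1 : Matrix (Fin 2) (Fin 2) R) := by
  ext i j
  fin_cases i <;> fin_cases j <;>
    simp [Matrix.mul_apply, Fin.sum_univ_two, Matrix.trace_fin_two, Matrix.det_fin_two] <;> ring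

theorem ter_trace_pow_succ_succ (M : Matrix (Fin 2) (Fin 2) R) (n : ℕ) :
    (M ^ (n + 2)).trace = M.trace * (M ^ (n + 1)).trace - M.det * (M ^ n).trace := by
  have h : M ^ (n + 2) = M.trace • M ^ (n + 1) - M.det • M ^ n := by
    rw [pow_add, pow_two, ter_sq_eq, Matrix.mul_sub, Matrix.mul_smul, Matrix.mul_smul, mul_one,
      ← pow_succ]
  rw [h, Matrix.trace_sub, Matrix.trace_smul, Matrix.trace_smul, smul_eq_mul, smul_eq_mul]

/-- if the trace and determinant of a `2 × 2` matrix lie in a subring, so do the traces of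
all its powers -/
theorem ter_trace_pow_mem (S : Subring R) (M : Matrix (Fin 2) (Fin 2) R) (ht : M.trace ∈ S)
    (hd : M.det ∈ S) (n : ℕ) : (M ^ n).trace ∈ S := by
  induction n using Nat.strong_induction_on with
  | _ n ih =>
    match n with
    | 0 =>
      rw [pow_zero, Matrix.trace_one]
      simp only [Fintype.card_fin]
      exact natCast_mem S 2
    | 1 => rwa [pow_one]
    | n + 2 =>
      rw [ter_trace_pow_succ_succ]
      exact S.sub_mem (S.mul_mem ht (ih (n + 1) (by omega))) (S.mul_mem hd (ih n (by omega)))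

theorem ter_det_pow_mem (S : Subring R) (M : Matrix (Fin 2) (Fin 2) R) (hd : M.det ∈ S) (n : ℕ) :
    (M ^ n).det ∈ S := by
  rw [Matrix.det_pow]
  exact S.pow_mem hd n

end Powers

end Fermat.Agent.T1
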