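/-
T1-E (H7), helper8: **extension of eigensystems to a bigger Hecke algebra**.

`ter_exists_extension` : `A ⊆ B` commutative rings, `B` finite over `ℤ`, `𝒪'` a complete discrete
valuation ring of characteristic zero with finite residue field.  Every `χ : A →+* 𝒪'` extends to
`lam : B →+* 𝒪''` for a finite extension `𝒪''` of `𝒪'` of the same kind (going-up, an embedding
into an algebraic closure of the fraction field, integral closure in a finite extension).

`ter_extension : TeExtension p N S` : the case `heckeAlgebra N 2 S ⊆ heckeAlgebra N 2 ∅`.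
-/
import Fermat.Agent.Lib.CFT.Local.Basic
import Fermat.Agent.Lib.S22.HeckeFinite
import Fermat.Agent.Lib.T1.Asm.S30Skeleton

set_option autoImplicit false
set_option linter.style.haveILetI false
set_option linter.unusedSectionVars false

open IsLocalRing

namespace Fermat.Agent.T1

open Fermat.Agent.CFT.Local in
/-- **extension of a character along a finite ring extension** -/
theorem ter_exists_extension {A B : Type} [CommRing A] [CommRing B] (f : A →+* B)
    (hf : Function.Injective f) [Module.Finite ℤ B]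
    (𝒪' : Type) [CommRing 𝒪'] [IsDomain 𝒪'] [IsDiscreteValuationRing 𝒪']
    [IsAdicComplete (maximalIdeal 𝒪') 𝒪'] [Finite (ResidueField 𝒪')] [CharZero 𝒪']
    (χ : A →+* 𝒪') :
    ∃ (𝒪'' : Type) (_ : CommRing 𝒪'') (_ : IsDomain 𝒪'') (_ : IsDiscreteValuationRing 𝒪'')
      (_ : IsAdicComplete (maximalIdeal 𝒪'') 𝒪'') (_ : Finite (ResidueField 𝒪''))
      (_ : CharZero 𝒪'') (_ : Algebra 𝒪' 𝒪'') (_ : Module.Finite 𝒪' 𝒪'')
      (_ : IsLocalHom (algebraMap 𝒪' 𝒪'')),
      Function.Injective (algebraMap 𝒪' 𝒪'') ∧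
      ∃ lam : B →+* 𝒪'', ∀ a : A, lam (f a) = algebraMap 𝒪' 𝒪'' (χ a) := by
  classical
  letI : Algebra A B := f.toAlgebra
  have hintZ : ∀ b : B, IsIntegral ℤ b := fun b => Algebra.IsIntegral.isIntegral b
  haveI : Algebra.IsIntegral A B := ⟨fun b => (hintZ b).tower_top⟩
  -- a prime of `B` above the kernel of `χ`
  haveI h𝔭 : (RingHom.ker χ).IsPrime := RingHom.ker_isPrime χ
  obtain ⟨𝔮, -, h𝔮, hcomap⟩ := Ideal.exists_ideal_over_prime_of_isIntegral (RingHom.ker χ)
    (⊥ : Ideal B) (by
      rw [← RingHom.ker_eq_comap_bot]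
      have : RingHom.ker (algebraMap A B) = ⊥ := (RingHom.injective_iff_ker_eq_bot _).mp hf
      rw [this]
      exact bot_le)
  haveI := h𝔮
  haveI : 𝔮.LiesOver (RingHom.ker χ) := ⟨hcomap.symm⟩
  -- the algebraic closure of the fraction field
  let K' := FractionRing 𝒪'
  let Ω := AlgebraicClosure K'
  letI : Algebra (A ⧸ RingHom.ker χ) Ω :=
    ((algebraMap 𝒪' Ω).comp (RingHom.kerLift χ)).toAlgebra
  have hinjΩ : Function.Injective (algebraMap 𝒪' Ω) := by
    rw [IsScalarTower.algebraMap_eq 𝒪' K' Ω]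
    exact (algebraMap K' Ω).injective.comp (IsFractionRing.injective 𝒪' K')
  haveI : Module.IsTorsionFree (A ⧸ RingHom.ker χ) Ω := by
    rw [Module.isTorsionFree_iff_algebraMap_injective]
    exact hinjΩ.comp (RingHom.kerLift_injective χ)
  haveI : Module.IsTorsionFree (A ⧸ RingHom.ker χ) (B ⧸ 𝔮) := by
    rw [Module.isTorsionFree_iff_faithfulSMul]
    infer_instance
  let ψ₀ : (B ⧸ 𝔮) →ₐ[A ⧸ RingHom.ker χ] Ω := IsAlgClosed.lift
  let ψ : B →+* Ω := ψ₀.toRingHom.comp (Ideal.Quotient.mk 𝔮)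
  have hψ : ∀ a : A, ψ (f a) = algebraMap 𝒪' Ω (χ a) := by
    intro a
    have h1 : ψ (f a) = ψ₀ (algebraMap (A ⧸ RingHom.ker χ) (B ⧸ 𝔮)
        (Ideal.Quotient.mk (RingHom.ker χ) a)) := rfl
    rw [h1, ψ₀.commutes]
    rfl
  have hint : ∀ b : B, IsIntegral 𝒪' (ψ b) := by
    intro b
    obtain ⟨P, hP, hPb⟩ := hintZ b
    refine ⟨P.map (Int.castRingHom 𝒪'), hP.map _, ?_⟩
    rw [Polynomial.eval₂_map]
    have h1 : (algebraMap 𝒪' Ω).comp (Int.castRingHom 𝒪') = ψ.comp (algebraMap ℤ B) :=
      RingHom.ext_int _ _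
    rw [h1, ← Polynomial.hom_eval₂, hPb, map_zero]
  -- the finite extension generated by the image
  obtain ⟨s, hs⟩ := (Module.Finite.fg_top : (⊤ : Submodule ℤ B).FG)
  let K'' : IntermediateField K' Ω := IntermediateField.adjoin K' (ψ '' (s : Set B))
  haveI : Finite (ψ '' (s : Set B)) := (s.finite_toSet.image ψ).to_subtype
  haveI hfd : FiniteDimensional K' K'' := IntermediateField.finiteDimensional_adjoin (by
    rintro x ⟨t, -, rfl⟩
    exact (hint t).tower_top)
  have hmem : ∀ b, ψ b ∈ K'' := by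
    intro b
    have hb : b ∈ Submodule.span ℤ (s : Set B) := by rw [hs]; trivial
    induction hb using Submodule.span_induction with
    | mem t ht => exact IntermediateField.subset_adjoin K' _ ⟨t, ht, rfl⟩
    | zero => rw [map_zero]; exact K''.zero_mem
    | add x y _ _ hx hy => rw [map_add]; exact K''.add_mem hx hy
    | smul n x _ hx =>
      rw [zsmul_eq_mul, map_mul, map_intCast]
      exact K''.mul_mem (K''.intCast_mem n) hx
  -- the integral closure of `𝒪'` in `K''`
  haveI : IsLocalInt 𝒪' :=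
    { isAdicComplete := inferInstance
      finite_residueField := inferInstance }
  haveI : CharZero K' := charZero_of_injective_algebraMap (IsFractionRing.injective 𝒪' K')
  haveI : IsLocalInt ↥(integralClosure 𝒪' ↥K'') :=
    IsLocalInt.of_isIntegralClosure 𝒪' K' ↥K'' ↥(integralClosure 𝒪' ↥K'')
  have hinjK : Function.Injective (algebraMap 𝒪' ↥K'') := by
    rw [IsScalarTower.algebraMap_eq 𝒪' K' ↥K'']
    exact (algebraMap K' ↥K'').injective.comp (IsFractionRing.injective 𝒪' K')
  have hinj : Function.Injective (algebraMap 𝒪' ↥(integralClosure 𝒪' ↥K'')) := by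
    rw [IsScalarTower.algebraMap_eq 𝒪' ↥(integralClosure 𝒪' ↥K'') ↥K'', RingHom.coe_comp] at hinjK
    exact Function.Injective.of_comp hinjK
  haveI : FaithfulSMul 𝒪' ↥(integralClosure 𝒪' ↥K'') :=
    (faithfulSMul_iff_algebraMap_injective _ _).mpr hinj
  let ψ' : B →+* ↥K'' := ψ.codRestrict K'' hmem
  haveI : IsScalarTower 𝒪' ↥K'' Ω := IsScalarTower.of_algebraMap_eq fun x => rfl
  have hint' : ∀ b, ψ' b ∈ integralClosure 𝒪' ↥K'' := by
    intro b
    have h1 : IsIntegral 𝒪' (algebraMap ↥K'' Ω (ψ' b)) := hint b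
    exact (isIntegral_algebraMap_iff (algebraMap ↥K'' Ω).injective).mp h1
  refine ⟨↥(integralClosure 𝒪' ↥K''), inferInstance, inferInstance, inferInstance, inferInstance,
    inferInstance, charZero_of_injective_algebraMap hinj, inferInstance,
    IsIntegralClosure.finite 𝒪' K' ↥K'' _, inferInstance, hinj,
    ψ'.codRestrict (integralClosure 𝒪' ↥K'') hint', ?_⟩
  intro a
  apply Subtype.ext
  apply Subtype.ext
  exact hψ a

/-- **(H7)**: every eigensystem of the Hecke algebra away from `S` extends to the full Hecke algebra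
over a finite extension of the coefficient ring -/
theorem ter_extension (p : ℕ) [Fact p.Prime] (N : ℕ) [NeZero N] (S : Set ℕ) :
    TeExtension p N S := by
  intro 𝒪' _ _ _ _ _ _ _ χ
  haveI : Module.Finite ℤ (CuspForm.heckeAlgebra N 2 (∅ : Set ℕ)) :=
    Fermat.Agent.S22Lib.moduleFinite_heckeAlgebra N 2 _
  obtain ⟨𝒪'', i1, i2, i3, i4, i5, i6, i7, i8, i9, hinj, lam, hlam⟩ :=
    ter_exists_extension
      (Subalgebra.inclusion (CuspForm.heckeAlgebra_mono (N := N) (k := 2)
        (Set.empty_subset S))).toRingHom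
      (Subalgebra.inclusion_injective _) 𝒪' χ
  exact ⟨𝒪'', i1, i2, i3, i4, i5, i6, i7, i8, i9, hinj, lam, fun t => hlam t⟩

end Fermat.Agent.T1
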