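/-
T1-E (E-d), helper8: Burnside's theorem for `2 × 2` matrices, by hand: if a group of matrices over
a field `F` has no common eigenvector and one of its elements has a non-scalar eigen-decomposition
(e.g. `F` algebraically closed), then the matrices span `M₂(F)`.
-/
import Mathlib

set_option autoImplicit false
set_option linter.style.haveILetI false
set_option linter.unusedSectionVars false

open Matrix

namespace Fermat.Agent.T1

variable {F : Type*} [Field F]

/-- `terPerp v ⬝ᵥ u = det [v u]` -/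
def terPerp (v : Fin 2 → F) : Fin 2 → F := ![-(v 1), v 0]

theorem terPerp_dot (v u : Fin 2 → F) : terPerp v ⬝ᵥ u = v 0 * u 1 - v 1 * u 0 := by
  simp [terPerp, dotProduct, Fin.sum_univ_two]
  ring

theorem terPerp_dot_self (v : Fin 2 → F) : terPerp v ⬝ᵥ v = 0 := by
  rw [terPerp_dot]
  ring

theorem terPerp_ne_zero {v : Fin 2 → F} (hv : v ≠ 0) : terPerp v ≠ 0 := by
  intro h
  apply hv
  have h0 := congrFun h 0
  have h1 := congrFun h 1
  simp [terPerp] at h0 h1
  ext i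
  fin_cases i
  · exact h1
  · exact h0

theorem terPerp_perp (v : Fin 2 → F) : terPerp (terPerp v) = -v := by
  ext i
  fin_cases i <;> simp [terPerp]

/-- a vector `u` with `det [v u] = 0`, `v ≠ 0`, is a multiple of `v` -/
theorem ter_eq_smul_of_perp {v u : Fin 2 → F} (hv : v ≠ 0) (h : terPerp v ⬝ᵥ u = 0) :
    ∃ s : F, u = s • v := by
  rw [terPerp_dot] at h
  by_cases h0 : v 0 = 0
  · have h1 : v 1 ≠ 0 := by
      intro h1
      apply hv
      ext i
      fin_cases i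
      · exact h0
      · exact h1
    refine ⟨u 1 / v 1, ?_⟩
    ext i
    fin_cases i
    · simp only [Fin.zero_eta, Pi.smul_apply, smul_eq_mul]
      rw [h0, mul_zero]
      rw [h0, zero_mul, zero_sub, neg_eq_zero] at h
      exact (mul_eq_zero.1 h).resolve_left h1
    · simp only [Fin.mk_one, Pi.smul_apply, smul_eq_mul]
      field_simp
  · refine ⟨u 0 / v 0, ?_⟩
    ext i
    fin_cases i
    · simp only [Fin.zero_eta, Pi.smul_apply, smul_eq_mul]
      field_simp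
    · simp only [Fin.mk_one, Pi.smul_apply, smul_eq_mul]
      field_simp
      linear_combination h

/-- two vectors with `det [v u] ≠ 0` span the plane -/
theorem ter_exists_comb {v u : Fin 2 → F} (h : terPerp v ⬝ᵥ u ≠ 0) (y : Fin 2 → F) :
    y = (-(terPerp u ⬝ᵥ y) / (terPerp v ⬝ᵥ u)) • v + ((terPerp v ⬝ᵥ y) / (terPerp v ⬝ᵥ u)) • u := by
  rw [terPerp_dot] at h
  simp only [terPerp_dot]
  ext i
  fin_cases i
  · simp only [Fin.zero_eta, Pi.add_apply, Pi.smul_apply, smul_eq_mul]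
    rw [div_mul_eq_mul_div, div_mul_eq_mul_div, ← add_div, eq_div_iff h]
    ring
  · simp only [Fin.mk_one, Pi.add_apply, Pi.smul_apply, smul_eq_mul]
    rw [div_mul_eq_mul_div, div_mul_eq_mul_div, ← add_div, eq_div_iff h]
    ring

/-- a matrix is determined by its values on two independent vectors -/
theorem ter_matrix_ext {v u : Fin 2 → F} (h : terPerp v ⬝ᵥ u ≠ 0) {M N : Matrix (Fin 2) (Fin 2) F}
    (hv : M *ᵥ v = N *ᵥ v) (hu : M *ᵥ u = N *ᵥ u) : M = N := by
  have key : ∀ y, M *ᵥ y = N *ᵥ y := by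
    intro y
    rw [ter_exists_comb h y, mulVec_add, mulVec_add, mulVec_smul, mulVec_smul, mulVec_smul,
      mulVec_smul, hv, hu]
  ext i j
  have := congrFun (key (Pi.single j 1)) i
  simpa using this

/-- a singular nonzero matrix is of rank one: `a = w αᵀ` -/
theorem ter_rank_one {a : Matrix (Fin 2) (Fin 2) F} (ha : a ≠ 0) {v : Fin 2 → F} (hv : v ≠ 0)
    (hav : a *ᵥ v = 0) : ∃ w : Fin 2 → F, w ≠ 0 ∧ ∃ s : F, s ≠ 0 ∧ a = vecMulVec w (s • terPerp v) := by
  -- a vector independent of `v`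
  obtain ⟨u, hu⟩ : ∃ u : Fin 2 → F, terPerp v ⬝ᵥ u ≠ 0 := by
    by_contra hcon
    push Not at hcon
    apply terPerp_ne_zero hv
    ext j
    have := hcon (Pi.single j 1)
    simpa using this
  have hw : a *ᵥ u ≠ 0 := by
    intro h0
    apply ha
    apply ter_matrix_ext hu
    · rw [hav, zero_mulVec]
    · rw [h0, zero_mulVec]
  refine ⟨a *ᵥ u, hw, (terPerp v ⬝ᵥ u)⁻¹, inv_ne_zero hu, ?_⟩
  apply ter_matrix_ext hu
  · rw [hav]
    ext i
    simp [vecMulVec, mulVec, dotProduct, Fin.sum_univ_two, terPerp]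
    ring
  · ext i
    have h1 : (vecMulVec (a *ᵥ u) ((terPerp v ⬝ᵥ u)⁻¹ • terPerp v) *ᵥ u) i =
        (a *ᵥ u) i * ((terPerp v ⬝ᵥ u)⁻¹ * (terPerp v ⬝ᵥ u)) := by
      simp [vecMulVec, mulVec, dotProduct, Fin.sum_univ_two]
      ring
    rw [h1, inv_mul_cancel₀ hu, mul_one]

theorem ter_mul_vecMulVec_mul (M N : Matrix (Fin 2) (Fin 2) F) (w α : Fin 2 → F) :
    M * vecMulVec w α * N = vecMulVec (M *ᵥ w) (α ᵥ* N) := by
  ext i j
  simp [vecMulVec, Matrix.mul_apply, mulVec, vecMul, dotProduct, Fin.sum_univ_two]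
  ring

theorem ter_trace_vecMulVec (w α : Fin 2 → F) : (vecMulVec w α).trace = α ⬝ᵥ w := by
  simp [vecMulVec, Matrix.trace_fin_two, dotProduct, Fin.sum_univ_two]
  ring

theorem terPerp_smul (s : F) (v : Fin 2 → F) : terPerp (s • v) = s • terPerp v := by
  ext i
  fin_cases i <;> simp [terPerp]

/-- **Burnside's theorem** for `2 × 2` matrices -/
theorem ter_burnside {G : Type*} [Group G] (ρ : G →* Matrix (Fin 2) (Fin 2) F)
    (hno : ∀ v : Fin 2 → F, v ≠ 0 → ∃ g, terPerp v ⬝ᵥ (ρ g *ᵥ v) ≠ 0)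
    (hex : ∃ (g₁ : G) (v₁ : Fin 2 → F) (lam : F), v₁ ≠ 0 ∧ ρ g₁ *ᵥ v₁ = lam • v₁ ∧
      ρ g₁ ≠ lam • (1 : Matrix (Fin 2) (Fin 2) F)) :
    Submodule.span F (Set.range ρ) = ⊤ := by
  set B := Submodule.span F (Set.range ρ) with hBdef
  have hB : ∀ g, ρ g ∈ B := fun g => Submodule.subset_span ⟨g, rfl⟩
  have hBmul : ∀ x ∈ B, ∀ g h, ρ g * x * ρ h ∈ B := by
    intro x hx g h
    induction hx using Submodule.span_induction with
    | mem x hx =>
      obtain ⟨y, rfl⟩ := hx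
      rw [← map_mul, ← map_mul]
      exact hB _
    | zero => rw [mul_zero, zero_mul]; exact B.zero_mem
    | add x y _ _ hx hy => rw [mul_add, add_mul]; exact B.add_mem hx hy
    | smul c x _ hx => rw [Matrix.mul_smul, Matrix.smul_mul]; exact B.smul_mem c hx
  obtain ⟨g₁, v₁, lam, hv₁, heig, hns⟩ := hex
  set a := ρ g₁ - lam • (1 : Matrix (Fin 2) (Fin 2) F) with ha
  have haB : a ∈ B := by
    refine B.sub_mem (hB g₁) (B.smul_mem lam ?_)
    rw [← map_one ρ]
    exact hB 1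
  have ha0 : a ≠ 0 := fun h => hns (sub_eq_zero.1 h)
  have hav : a *ᵥ v₁ = 0 := by
    rw [ha, sub_mulVec, heig, smul_mulVec, one_mulVec, sub_self]
  obtain ⟨w, hw, s, hs, haw⟩ := ter_rank_one ha0 hv₁ hav
  obtain ⟨α, hα⟩ : ∃ α : Fin 2 → F, α = s • terPerp v₁ := ⟨_, rfl⟩
  rw [← hα] at haw
  have hrk : ∀ x y, vecMulVec (ρ x *ᵥ w) (α ᵥ* ρ y) ∈ B := by
    intro x y
    rw [← ter_mul_vecMulVec_mul, ← haw]
    exact hBmul a haB x y
  obtain ⟨x₁, hx₁⟩ := hno w hw
  have hu : s • v₁ ≠ 0 := smul_ne_zero hs hv₁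
  have hαu : α = terPerp (s • v₁) := by rw [terPerp_smul, hα]
  obtain ⟨y₁, hy₁⟩ := hno (s • v₁) hu
  rw [← hαu, dotProduct_mulVec] at hy₁
  obtain ⟨w', hw'⟩ : ∃ w' : Fin 2 → F, w' = ρ x₁ *ᵥ w := ⟨_, rfl⟩
  obtain ⟨α', hα'⟩ : ∃ α' : Fin 2 → F, α' = α ᵥ* ρ y₁ := ⟨_, rfl⟩
  rw [← hw'] at hx₁
  rw [← hα'] at hy₁
  have hαα' : terPerp α ⬝ᵥ α' ≠ 0 := by
    rw [hαu, terPerp_perp, neg_dotProduct, neg_ne_zero, dotProduct_comm]
    exact hy₁
  have h1 : ∀ x, ρ 1 *ᵥ x = x := by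
    intro x
    rw [map_one, one_mulVec]
  have h1' : ∀ x, x ᵥ* ρ 1 = x := by
    intro x
    rw [map_one, vecMul_one]
  have hwα : vecMulVec w α ∈ B := by
    have := hrk 1 1
    rwa [h1, h1'] at this
  have hwα' : vecMulVec w α' ∈ B := by
    have := hrk 1 y₁
    rwa [h1, ← hα'] at this
  have hw'α : vecMulVec w' α ∈ B := by
    have := hrk x₁ 1
    rwa [h1', ← hw'] at this
  have hw'α' : vecMulVec w' α' ∈ B := by
    have := hrk x₁ y₁
    rwa [← hw', ← hα'] at this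
  have hall1 : ∀ y, vecMulVec y α ∈ B ∧ vecMulVec y α' ∈ B := by
    intro y
    rw [ter_exists_comb hx₁ y, add_vecMulVec, smul_vecMulVec, smul_vecMulVec, add_vecMulVec,
      smul_vecMulVec, smul_vecMulVec]
    exact ⟨B.add_mem (B.smul_mem _ hwα) (B.smul_mem _ hw'α),
      B.add_mem (B.smul_mem _ hwα') (B.smul_mem _ hw'α')⟩
  have hall : ∀ y β, vecMulVec y β ∈ B := by
    intro y β
    rw [ter_exists_comb hαα' β, vecMulVec_add, vecMulVec_smul, vecMulVec_smul]
    exact B.add_mem (B.smul_mem _ (hall1 y).1) (B.smul_mem _ (hall1 y).2)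
  rw [eq_top_iff]
  intro X _
  have hX : X = vecMulVec (fun i => X i 0) (Pi.single 0 1) +
      vecMulVec (fun i => X i 1) (Pi.single 1 1) := by
    ext i j
    fin_cases j <;> simp [vecMulVec]
  rw [hX]
  exact B.add_mem (hall _ _) (hall _ _)

end Fermat.Agent.T1
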