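/-
T1-E (E-d), helper8: descent of two-dimensional representations to a finite subfield,
the case of a common eigenvector (the semisimplification is descended).
-/
import Fermat.Agent.Lib.T1.Asm.Res.DescentBasic

set_option autoImplicit false
set_option linter.style.haveILetI false
set_option linter.unusedSectionVars false

open Polynomial Matrix

namespace Fermat.Agent.T1

/-- the conclusion of the descent lemma: a representation over `k₀` with the same traces and
determinants, and trivial on the kernel of `ρ` -/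
def TerDescends (k₀ : Type*) {F : Type*} [Field k₀] [Field F] [Algebra k₀ F] {G : Type*} [Group G]
    (ρ : G →* Matrix (Fin 2) (Fin 2) F) : Prop :=
  ∃ ρ₀ : G →* Matrix (Fin 2) (Fin 2) k₀,
    (∀ g, algebraMap k₀ F (ρ₀ g).trace = (ρ g).trace) ∧
    (∀ g, algebraMap k₀ F (ρ₀ g).det = (ρ g).det) ∧ ∀ g, ρ g = 1 → ρ₀ g = 1

variable {k₀ F : Type*} [Field k₀] [Finite k₀] [Field F] [Algebra k₀ F] {G : Type*} [Group G]

/-- `x ↦ x ^ |k₀|` is a ring homomorphism of `F` -/
theorem ter_exists_frob (k₀ F : Type*) [Field k₀] [Finite k₀] [Field F] [Algebra k₀ F] :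
    ∃ f : F →+* F, ∀ x, f x = x ^ Nat.card k₀ := by
  classical
  have : Fintype k₀ := Fintype.ofFinite k₀
  obtain ⟨p, hp⟩ := CharP.exists k₀
  haveI := hp
  obtain ⟨n, hpr, hn⟩ := FiniteField.card k₀ p
  haveI : Fact p.Prime := ⟨hpr⟩
  haveI : CharP F p := charP_of_injective_algebraMap (algebraMap k₀ F).injective p
  refine ⟨iterateFrobenius F p n, fun x => ?_⟩
  rw [iterateFrobenius_def, Nat.card_eq_fintype_card, hn]

/-- the diagonal case -/
theorem ter_descends_diag (ρ : G →* Matrix (Fin 2) (Fin 2) F) (c e : G → F)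
    (hc1 : c 1 = 1) (hcm : ∀ g h, c (g * h) = c g * c h)
    (he1 : e 1 = 1) (hem : ∀ g h, e (g * h) = e g * e h)
    (htr : ∀ g, (ρ g).trace = c g + e g) (hdet : ∀ g, (ρ g).det = c g * e g)
    (hker : ∀ g, ρ g = 1 → c g = 1 ∧ e g = 1)
    (hc : ∀ g, ∃ a : k₀, algebraMap k₀ F a = c g) (he : ∀ g, ∃ a : k₀, algebraMap k₀ F a = e g) :
    TerDescends k₀ ρ := by
  choose c₀ hc₀ using hc
  choose e₀ he₀ using he
  have hinj := (algebraMap k₀ F).injective
  refine ⟨{ toFun := fun g => Matrix.diagonal ![c₀ g, e₀ g]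
            map_one' := ?_
            map_mul' := ?_ }, ?_, ?_, ?_⟩
  · have h1 : c₀ 1 = 1 := hinj (by rw [hc₀, hc1, map_one])
    have h2 : e₀ 1 = 1 := hinj (by rw [he₀, he1, map_one])
    rw [h1, h2]
    ext i j
    fin_cases i <;> fin_cases j <;> simp
  · intro g h
    have h1 : c₀ (g * h) = c₀ g * c₀ h := hinj (by rw [hc₀, hcm, map_mul, hc₀, hc₀])
    have h2 : e₀ (g * h) = e₀ g * e₀ h := hinj (by rw [he₀, hem, map_mul, he₀, he₀])
    rw [h1, h2, Matrix.diagonal_mul_diagonal]
    congr 1
    ext i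
    fin_cases i <;> simp
  · intro g
    show algebraMap k₀ F (Matrix.diagonal ![c₀ g, e₀ g]).trace = _
    rw [Matrix.trace_fin_two, htr]
    simp [hc₀, he₀]
  · intro g
    show algebraMap k₀ F (Matrix.diagonal ![c₀ g, e₀ g]).det = _
    rw [Matrix.det_fin_two, hdet]
    simp [hc₀, he₀]
  · intro g hg
    obtain ⟨h1, h2⟩ := hker g hg
    have h1' : c₀ g = 1 := hinj (by rw [hc₀, h1, map_one])
    have h2' : e₀ g = 1 := hinj (by rw [he₀, h2, map_one])
    show Matrix.diagonal ![c₀ g, e₀ g] = 1
    rw [h1', h2']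
    ext i j
    fin_cases i <;> fin_cases j <;> simp

/-- the companion-matrix case: the character `c` takes its values in the quadratic extension
`k₀ + k₀ a₀` of `k₀` -/
theorem ter_descends_companion (ρ : G →* Matrix (Fin 2) (Fin 2) F) (c : G → F)
    (hc1 : c 1 = 1) (hcm : ∀ g h, c (g * h) = c g * c h) (a₀ : F)
    (hne : ¬ ∃ a : k₀, algebraMap k₀ F a = a₀) (t₀ d₀ : k₀)
    (ha₀ : a₀ * a₀ = algebraMap k₀ F t₀ * a₀ - algebraMap k₀ F d₀)
    (hrep : ∀ g, ∃ r s : k₀, c g = algebraMap k₀ F r + algebraMap k₀ F s * a₀)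
    (htr : ∀ g (r s : k₀), c g = algebraMap k₀ F r + algebraMap k₀ F s * a₀ →
      (ρ g).trace = algebraMap k₀ F (2 * r + s * t₀))
    (hdet : ∀ g (r s : k₀), c g = algebraMap k₀ F r + algebraMap k₀ F s * a₀ →
      (ρ g).det = algebraMap k₀ F (r * r + r * s * t₀ + s * s * d₀))
    (hker : ∀ g, ρ g = 1 → c g = 1) : TerDescends k₀ ρ := by
  have hinj := (algebraMap k₀ F).injective
  have huniq : ∀ r s r' s' : k₀, algebraMap k₀ F r + algebraMap k₀ F s * a₀ =
      algebraMap k₀ F r' + algebraMap k₀ F s' * a₀ → r = r' ∧ s = s' := by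
    intro r s r' s' h
    by_cases hs : s = s'
    · subst hs
      have : algebraMap k₀ F r = algebraMap k₀ F r' := by linear_combination h
      exact ⟨hinj this, rfl⟩
    · exfalso
      apply hne
      have hs' : algebraMap k₀ F (s - s') ≠ 0 := by
        rw [Ne, map_eq_zero_iff _ hinj, sub_eq_zero]
        exact hs
      refine ⟨(r' - r) / (s - s'), ?_⟩
      rw [map_div₀, div_eq_iff hs', map_sub, map_sub]
      linear_combination -h
  choose r s hrs using hrep
  have h1 : r 1 = 1 ∧ s 1 = 0 := by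
    apply huniq
    rw [← hrs, hc1]
    simp
  have hmul : ∀ g h, r (g * h) = r g * r h - s g * s h * d₀ ∧
      s (g * h) = r g * s h + r h * s g + s g * s h * t₀ := by
    intro g h
    apply huniq
    rw [← hrs, hcm, hrs g, hrs h]
    simp only [map_sub, map_add, map_mul]
    linear_combination (algebraMap k₀ F (s g) * algebraMap k₀ F (s h)) * ha₀
  refine ⟨{ toFun := fun g => !![r g, -(s g * d₀); s g, r g + s g * t₀]
            map_one' := ?_
            map_mul' := ?_ }, ?_, ?_, ?_⟩
  · rw [h1.1, h1.2]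
    ext i j
    fin_cases i <;> fin_cases j <;> simp
  · intro g h
    rw [(hmul g h).1, (hmul g h).2]
    ext i j
    fin_cases i <;> fin_cases j <;> simp [Matrix.mul_apply, Fin.sum_univ_two] <;> ring
  · intro g
    show algebraMap k₀ F (!![r g, -(s g * d₀); s g, r g + s g * t₀]).trace = _
    rw [htr g _ _ (hrs g), Matrix.trace_fin_two]
    congr 1
    simp
    ring
  · intro g
    show algebraMap k₀ F (!![r g, -(s g * d₀); s g, r g + s g * t₀]).det = _
    rw [hdet g _ _ (hrs g), Matrix.det_fin_two]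
    congr 1
    simp
    ring
  · intro g hg
    have hcg := hker g hg
    have h2 : r g = 1 ∧ s g = 0 := by
      apply huniq
      rw [← hrs, hcg]
      simp
    show !![r g, -(s g * d₀); s g, r g + s g * t₀] = 1
    rw [h2.1, h2.2]
    ext i j
    fin_cases i <;> fin_cases j <;> simp

/-- descent in the presence of a common eigenvector -/
theorem ter_descends_of_eigen (ρ : G →* Matrix (Fin 2) (Fin 2) F)
    (htr : ∀ g, ∃ a : k₀, algebraMap k₀ F a = (ρ g).trace)
    (hdet : ∀ g, ∃ a : k₀, algebraMap k₀ F a = (ρ g).det)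
    (v : Fin 2 → F) (hv : v ≠ 0) (c : G → F) (hc : ∀ g, ρ g *ᵥ v = c g • v) :
    TerDescends k₀ ρ := by
  classical
  have hsm : ∀ x : F, x • v = 0 → x = 0 := fun x hx => (smul_eq_zero.1 hx).resolve_right hv
  have hc1 : c 1 = 1 := by
    have := hc 1
    rw [map_one, one_mulVec] at this
    have h2 : (c 1 - 1) • v = 0 := by rw [sub_smul, one_smul, ← this, sub_self]
    exact sub_eq_zero.1 (hsm _ h2)
  have hcm : ∀ g h, c (g * h) = c g * c h := by
    intro g h
    have h1 := hc (g * h)
    rw [map_mul, ← mulVec_mulVec, hc h, mulVec_smul, hc g, smul_smul] at h1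
    have h2 : (c (g * h) - c g * c h) • v = 0 := by rw [sub_smul, ← h1, mul_comm, sub_self]
    exact sub_eq_zero.1 (hsm _ h2)
  have hc0 : ∀ g, c g ≠ 0 := by
    intro g h0
    have := hcm g g⁻¹
    rw [mul_inv_cancel, hc1, h0, zero_mul] at this
    exact one_ne_zero this
  have hcinv : ∀ g, c g⁻¹ = (c g)⁻¹ := by
    intro g
    have := hcm g g⁻¹
    rw [mul_inv_cancel, hc1] at this
    exact eq_inv_of_mul_eq_one_right this.symm
  have hd1 : (ρ 1).det = 1 := by rw [map_one, Matrix.det_one]
  have hdm : ∀ g h, (ρ (g * h)).det = (ρ g).det * (ρ h).det := by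
    intro g h
    rw [map_mul, Matrix.det_mul]
  obtain ⟨e, he⟩ : ∃ e : G → F, ∀ g, e g = (ρ g).det / c g := ⟨fun g => (ρ g).det / c g, fun _ => rfl⟩
  have he1 : e 1 = 1 := by rw [he, hd1, hc1, div_one]
  have hem : ∀ g h, e (g * h) = e g * e h := by
    intro g h
    rw [he, he, he, hdm, hcm]
    have := hc0 g
    have := hc0 h
    field_simp
  have hce : ∀ g, c g * e g = (ρ g).det := by
    intro g
    rw [he]
    have := hc0 g
    field_simp
  -- Cayley–Hamilton on the eigenvector
  have hquad : ∀ g, c g * c g - (ρ g).trace * c g + (ρ g).det = 0 := by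
    intro g
    have h1 : (ρ g * ρ g) *ᵥ v = ((ρ g).trace • ρ g - (ρ g).det • (1 : Matrix (Fin 2) (Fin 2) F)) *ᵥ v := by
      rw [← ter_sq_eq]
    rw [← mulVec_mulVec, hc g, mulVec_smul, hc g, sub_mulVec, smul_mulVec, hc g, smul_mulVec,
      one_mulVec, smul_smul, smul_smul] at h1
    have h2 : (c g * c g - (ρ g).trace * c g + (ρ g).det) • v = 0 := by
      rw [add_smul, sub_smul, h1]
      abel
    exact hsm _ h2
  have htce : ∀ g, (ρ g).trace = c g + e g := by
    intro g
    have h1 := hquad g
    have h2 := hce g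
    have h3 : c g * ((ρ g).trace - (c g + e g)) = 0 := by linear_combination -h1 - h2
    rcases mul_eq_zero.1 h3 with h | h
    · exact absurd h (hc0 g)
    · exact sub_eq_zero.1 h
  -- the Frobenius
  obtain ⟨fr, hfr⟩ := ter_exists_frob k₀ F
  have hfix : ∀ a : k₀, fr (algebraMap k₀ F a) = algebraMap k₀ F a := by
    intro a
    rw [hfr, ter_pow_card_algebraMap]
  have hroot : ∀ g, fr (c g) = c g ∨ fr (c g) = e g := by
    intro g
    obtain ⟨t, ht⟩ := htr g
    obtain ⟨dd, hdd⟩ := hdet g
    have h1 := congrArg fr (hquad g)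
    rw [map_add, map_sub, map_mul, map_mul, map_zero, ← ht, hfix, ← hdd, hfix, ht, hdd] at h1
    have h2 : (fr (c g) - c g) * (fr (c g) - e g) = 0 := by
      have h3 := htce g
      have h4 := hce g
      linear_combination h1 + (fr (c g)) * h3 + h4
    rcases mul_eq_zero.1 h2 with h | h
    · exact Or.inl (sub_eq_zero.1 h)
    · exact Or.inr (sub_eq_zero.1 h)
  have heinv : ∀ g, e g⁻¹ = (e g)⁻¹ := by
    intro g
    have := hem g g⁻¹
    rw [mul_inv_cancel, he1] at this
    exact eq_inv_of_mul_eq_one_right this.symm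
  have hker : ∀ g, ρ g = 1 → c g = 1 ∧ e g = 1 := by
    intro g hg
    have h1 := hc g
    rw [hg, one_mulVec] at h1
    have h2 : (c g - 1) • v = 0 := by rw [sub_smul, one_smul, ← h1, sub_self]
    have h3 : c g = 1 := sub_eq_zero.1 (hsm _ h2)
    refine ⟨h3, ?_⟩
    rw [he, hg, Matrix.det_one, h3, div_one]
  -- the first case
  have key1 : (∀ g, fr (c g) = c g) → TerDescends k₀ ρ := by
    intro h
    have hck : ∀ g, ∃ a : k₀, algebraMap k₀ F a = c g := by
      intro g
      apply ter_mem_range_of_pow_card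
      rw [← hfr, h g]
    refine ter_descends_diag ρ c e hc1 hcm he1 hem htce (fun g => (hce g).symm) hker hck ?_
    intro g
    obtain ⟨a, ha⟩ := hck g
    obtain ⟨t, ht⟩ := htr g
    refine ⟨t - a, ?_⟩
    rw [map_sub, ha, ht, htce g]
    ring
  -- the two subgroups
  let H₁ : Subgroup G :=
    { carrier := {g | fr (c g) = c g}
      one_mem' := by
        show fr (c 1) = c 1
        rw [hc1, map_one]
      mul_mem' := by
        intro g h hg hh
        show fr (c (g * h)) = c (g * h)
        rw [hcm, map_mul, hg, hh]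
      inv_mem' := by
        intro g hg
        show fr (c g⁻¹) = c g⁻¹
        rw [hcinv, map_inv₀, hg] }
  let H₂ : Subgroup G :=
    { carrier := {g | fr (c g) = e g}
      one_mem' := by
        show fr (c 1) = e 1
        rw [hc1, map_one, he1]
      mul_mem' := by
        intro g h hg hh
        show fr (c (g * h)) = e (g * h)
        rw [hcm, map_mul, hg, hh, hem]
      inv_mem' := by
        intro g hg
        show fr (c g⁻¹) = e g⁻¹
        rw [hcinv, map_inv₀, hg, heinv] }
  rcases ter_subgroup_union H₁ H₂ hroot with h | h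
  · exact key1 h
  · by_cases hall : ∀ g, fr (c g) = c g
    · exact key1 hall
    · push Not at hall
      obtain ⟨g₀, hg₀⟩ := hall
      have h' : ∀ g, fr (c g) = e g := h
      have hfre : ∀ g, fr (e g) = c g := by
        intro g
        obtain ⟨t, ht⟩ := htr g
        have h1 : fr ((ρ g).trace) = (ρ g).trace := by rw [← ht, hfix]
        rw [htce g, map_add, h' g] at h1
        linear_combination h1
      have hne : ¬ ∃ a : k₀, algebraMap k₀ F a = c g₀ := by
        rintro ⟨a, ha⟩
        apply hg₀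
        rw [← ha, hfix]
      obtain ⟨t₀, ht₀⟩ := htr g₀
      obtain ⟨d₀, hd₀⟩ := hdet g₀
      have hpow : ∀ x : F, fr (fr x) = x ^ (Nat.card k₀ ^ 2) := by
        intro x
        rw [hfr, hfr, ← pow_mul, sq]
      have hsum : c g₀ + fr (c g₀) = algebraMap k₀ F t₀ := by
        rw [h' g₀, ht₀, htce g₀]
      have hprod : c g₀ * fr (c g₀) = algebraMap k₀ F d₀ := by
        rw [h' g₀, hd₀, hce g₀]
      refine ter_descends_companion ρ c hc1 hcm (c g₀) hne t₀ d₀ ?_ ?_ ?_ ?_
        (fun g hg => (hker g hg).1)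
      · linear_combination (c g₀) * hsum - hprod
      · intro g
        apply ter_exists_of_pow_card_sq (c g₀) _ hne
        · rw [← hpow, h' g, hfre g]
        · rw [← hpow, h' g₀, hfre g₀]
      · intro g r s hrs
        have h1 : fr (c g) = algebraMap k₀ F r + algebraMap k₀ F s * fr (c g₀) := by
          rw [hrs, map_add, map_mul, hfix, hfix]
        rw [htce g, ← h' g, h1, hrs]
        simp only [map_add, map_mul, map_ofNat]
        linear_combination (algebraMap k₀ F s) * hsum
      · intro g r s hrs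
        have h1 : fr (c g) = algebraMap k₀ F r + algebraMap k₀ F s * fr (c g₀) := by
          rw [hrs, map_add, map_mul, hfix, hfix]
        rw [← hce g, ← h' g, h1, hrs]
        simp only [map_add, map_mul]
        linear_combination (algebraMap k₀ F r * algebraMap k₀ F s) * hsum +
          (algebraMap k₀ F s * algebraMap k₀ F s) * hprod

end Fermat.Agent.T1
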