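/-
T1-E (E-d), helper8: descent of two-dimensional representations to a finite subfield,
the absolutely irreducible case: if the matrices `ρ(g)` span `M₂(F)` and have traces in the finite
field `k₀ ⊆ F`, then `ρ` is conjugate to a representation over `k₀`.

The `k₀`-span `S` of the `ρ(g)` is a `k₀`-form of `M₂(F)` (trace form), it is a finite
noncommutative ring, so it contains a nonzero singular matrix `a = w αᵀ` (Wedderburn's little
theorem); then `α ρ(h) w = tr (ρ(h) a) ∈ k₀` for all `h`, which gives the conjugating matrices.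
-/
import Fermat.Agent.Lib.T1.Asm.Res.DescentBurnside
import Fermat.Agent.Lib.T1.Asm.Res.DescentRed

set_option autoImplicit false
set_option linter.style.haveILetI false
set_option linter.unusedSectionVars false

open Matrix

namespace Fermat.Agent.T1

variable {k₀ F : Type*} [Field k₀] [Field F] [Algebra k₀ F] {G : Type*} [Group G]

/-- a family of matrices which is a basis of `M₂(F)` has a nondegenerate Gram matrix for the
trace form -/
theorem ter_gram_nondeg {ι : Type*} [Fintype ι] (bas : Module.Basis ι F (Matrix (Fin 2) (Fin 2) F))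
    (c : ι → F) (hc : ∀ i, ∑ j, (bas i * bas j).trace * c j = 0) : c = 0 := by
  classical
  set X : Matrix (Fin 2) (Fin 2) F := ∑ j, c j • bas j with hX
  have h1 : ∀ i, (bas i * X).trace = 0 := by
    intro i
    rw [hX, Finset.mul_sum, Matrix.trace_sum, ← hc i]
    refine Finset.sum_congr rfl fun j _ => ?_
    rw [Matrix.mul_smul, Matrix.trace_smul, smul_eq_mul, mul_comm]
  have h2 : ∀ Y : Matrix (Fin 2) (Fin 2) F, (Y * X).trace = 0 := by
    intro Y
    have : (Matrix.traceLinearMap (Fin 2) F F).comp (LinearMap.mulRight F X) = 0 := by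
      apply bas.ext
      intro i
      simpa using h1 i
    have := LinearMap.congr_fun this Y
    simpa using this
  have h3 : X = 0 := by
    ext i j
    have := h2 (Matrix.single j i 1)
    fin_cases i <;> fin_cases j <;>
      simpa [Matrix.trace_fin_two, Matrix.mul_apply, Fin.sum_univ_two, Matrix.single_apply] using this
  have h4 := Fintype.linearIndependent_iff.1 bas.linearIndependent c (by rw [← hX, h3])
  ext i
  exact h4 i

/-- if the Gram matrix of a basis of `M₂(F)` and the traces `tr (bᵢ x)` lie in `k₀`, then the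
coordinates of `x` lie in `k₀` -/
theorem ter_coeff_mem {ι : Type*} [Fintype ι] [DecidableEq ι]
    (bas : Module.Basis ι F (Matrix (Fin 2) (Fin 2) F)) (T₀ : Matrix ι ι k₀)
    (hT : ∀ i j, algebraMap k₀ F (T₀ i j) = (bas i * bas j).trace)
    (x : Matrix (Fin 2) (Fin 2) F) (τ₀ : ι → k₀)
    (hτ : ∀ i, algebraMap k₀ F (τ₀ i) = (bas i * x).trace) :
    ∃ c₀ : ι → k₀, x = ∑ j, c₀ j • bas j := by
  have hdetT : (T₀.map (algebraMap k₀ F)).det ≠ 0 := by
    intro h0
    obtain ⟨v, hv0, hv⟩ := Matrix.exists_mulVec_eq_zero_iff.2 h0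
    apply hv0
    apply ter_gram_nondeg bas
    intro i
    have := congrFun hv i
    simp only [mulVec, dotProduct, Matrix.map_apply, Pi.zero_apply] at this
    rw [← this]
    refine Finset.sum_congr rfl fun j _ => ?_
    rw [hT]
  have hdetT₀ : T₀.det ≠ 0 := by
    intro h0
    apply hdetT
    have := RingHom.map_det (algebraMap k₀ F) T₀
    rw [RingHom.mapMatrix_apply] at this
    rw [← this, h0, map_zero]
  have hunit : IsUnit T₀.det := isUnit_iff_ne_zero.2 hdetT₀
  set c₀ := T₀⁻¹ *ᵥ τ₀ with hc₀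
  have hTc : T₀ *ᵥ c₀ = τ₀ := by
    rw [hc₀, mulVec_mulVec, Matrix.mul_nonsing_inv _ hunit, one_mulVec]
  refine ⟨c₀, ?_⟩
  set c := bas.repr x with hc
  have hx : x = ∑ j, c j • bas j := (bas.sum_repr x).symm
  have hcc : (fun j => c j - algebraMap k₀ F (c₀ j)) = 0 := by
    apply ter_gram_nondeg bas
    intro i
    have h1 : (bas i * x).trace = ∑ j, (bas i * bas j).trace * c j := by
      conv_lhs => rw [hx]
      rw [Finset.mul_sum, Matrix.trace_sum]
      refine Finset.sum_congr rfl fun j _ => ?_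
      rw [Matrix.mul_smul, Matrix.trace_smul, smul_eq_mul, mul_comm]
    have h2 : algebraMap k₀ F (τ₀ i) = ∑ j, (bas i * bas j).trace * algebraMap k₀ F (c₀ j) := by
      rw [← hTc]
      simp only [mulVec, dotProduct, map_sum, map_mul, hT]
    simp only [mul_sub, Finset.sum_sub_distrib]
    rw [← h1, ← h2, hτ, sub_self]
  conv_lhs => rw [hx]
  refine Finset.sum_congr rfl fun j _ => ?_
  have := congrFun hcc j
  simp only [Pi.zero_apply, sub_eq_zero] at this
  rw [this, algebraMap_smul]

/-- a finite noncommutative `k₀`-algebra of `2 × 2` matrices contains a nonzero singular matrix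
(Wedderburn's little theorem) -/
theorem ter_exists_singular [Finite k₀] (S : Submodule k₀ (Matrix (Fin 2) (Fin 2) F))
    (hfg : S.FG) (h1 : (1 : Matrix (Fin 2) (Fin 2) F) ∈ S) (hmul : ∀ x y, x ∈ S → y ∈ S → x * y ∈ S)
    (hnc : ∃ x ∈ S, ∃ y ∈ S, x * y ≠ y * x) : ∃ a ∈ S, a ≠ 0 ∧ a.det = 0 := by
  by_contra hcon
  push Not at hcon
  set A : Subalgebra k₀ (Matrix (Fin 2) (Fin 2) F) := S.toSubalgebra h1 hmul with hA
  haveI : Module.Finite k₀ ↥S := Module.Finite.iff_fg.2 hfg
  haveI : Finite ↥S := Module.finite_of_finite k₀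
  haveI : Finite ↥A := ‹Finite ↥S›
  haveI : NoZeroDivisors ↥A := by
    refine ⟨fun {x y} hxy => ?_⟩
    by_contra hne
    push Not at hne
    have hx : (x : Matrix (Fin 2) (Fin 2) F) ≠ 0 := fun h => hne.1 (Subtype.ext h)
    have hy : (y : Matrix (Fin 2) (Fin 2) F) ≠ 0 := fun h => hne.2 (Subtype.ext h)
    have h2 : (x : Matrix (Fin 2) (Fin 2) F) * (y : Matrix (Fin 2) (Fin 2) F) = 0 := by
      have := congrArg Subtype.val hxy
      simpa using this
    have h3 := congrArg Matrix.det h2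
    rw [Matrix.det_mul, Matrix.det_zero] at h3
    rcases mul_eq_zero.1 h3 with h | h
    · exact hcon _ x.2 hx h
    · exact hcon _ y.2 hy h
  haveI : Nontrivial ↥A := ⟨⟨0, 1, fun h => by
    have := congrArg Subtype.val h
    simp at this⟩⟩
  haveI : IsDomain ↥A := { }
  have hfield := Finite.isDomain_to_isField ↥A
  obtain ⟨x, hx, y, hy, hxy⟩ := hnc
  apply hxy
  have := hfield.mul_comm ⟨x, hx⟩ ⟨y, hy⟩
  exact congrArg Subtype.val this

/-- if `R ρ(g) U` has entries in `k₀` for all `g` (`R`, `U` invertible) then `ρ` descends -/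
theorem ter_descends_of_conj (ρ : G →* Matrix (Fin 2) (Fin 2) F) (U R : Matrix (Fin 2) (Fin 2) F)
    (hU : U.det ≠ 0) (hR : R.det ≠ 0)
    (hN : ∀ g, ∃ N₀ : Matrix (Fin 2) (Fin 2) k₀, N₀.map (algebraMap k₀ F) = R * ρ g * U) :
    TerDescends k₀ ρ := by
  choose N₀ hN₀ using hN
  have hinj : Function.Injective (fun M : Matrix (Fin 2) (Fin 2) k₀ => M.map (algebraMap k₀ F)) :=
    Matrix.map_injective (algebraMap k₀ F).injective
  have hUu : IsUnit U.det := isUnit_iff_ne_zero.2 hU
  have hRu : IsUnit R.det := isUnit_iff_ne_zero.2 hR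
  have hPi : (N₀ 1).map (algebraMap k₀ F) = R * U := by rw [hN₀, map_one, mul_one]
  have hPdet : (N₀ 1).det ≠ 0 := by
    intro h0
    have := RingHom.map_det (algebraMap k₀ F) (N₀ 1)
    rw [RingHom.mapMatrix_apply, hPi, h0, map_zero, Matrix.det_mul] at this
    exact mul_ne_zero hR hU this.symm
  have hPu : IsUnit (N₀ 1).det := isUnit_iff_ne_zero.2 hPdet
  set ρ₀ : G → Matrix (Fin 2) (Fin 2) k₀ := fun g => (N₀ 1)⁻¹ * N₀ g with hρ₀
  have key : ∀ g, U * (ρ₀ g).map (algebraMap k₀ F) = ρ g * U := by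
    intro g
    have h1 : R * U * (ρ₀ g).map (algebraMap k₀ F) = R * ρ g * U := by
      rw [← hPi, ← Matrix.map_mul, hρ₀]
      simp only
      rw [← Matrix.mul_assoc, Matrix.mul_nonsing_inv _ hPu, Matrix.one_mul, hN₀]
    have h2 : R⁻¹ * (R * U * (ρ₀ g).map (algebraMap k₀ F)) = R⁻¹ * (R * ρ g * U) := by rw [h1]
    rwa [← Matrix.mul_assoc, ← Matrix.mul_assoc, Matrix.nonsing_inv_mul _ hRu, Matrix.one_mul,
      ← Matrix.mul_assoc, ← Matrix.mul_assoc, Matrix.nonsing_inv_mul _ hRu, Matrix.one_mul] at h2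
  have cancel : ∀ M M' : Matrix (Fin 2) (Fin 2) F, U * M = U * M' → M = M' := by
    intro M M' h
    have : U⁻¹ * (U * M) = U⁻¹ * (U * M') := by rw [h]
    rwa [← Matrix.mul_assoc, ← Matrix.mul_assoc, Matrix.nonsing_inv_mul _ hUu, Matrix.one_mul,
      Matrix.one_mul] at this
  refine ⟨{ toFun := ρ₀
            map_one' := ?_
            map_mul' := ?_ }, ?_, ?_, ?_⟩
  · apply hinj
    apply cancel
    simp only
    rw [key, map_one, Matrix.one_mul, Matrix.map_one _ (map_zero _) (map_one _), Matrix.mul_one]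
  · intro g h
    apply hinj
    apply cancel
    simp only
    rw [key, Matrix.map_mul, ← Matrix.mul_assoc, key, map_mul, Matrix.mul_assoc, Matrix.mul_assoc,
      key]
  · intro g
    show algebraMap k₀ F (ρ₀ g).trace = _
    have h1 : ((ρ₀ g).map (algebraMap k₀ F)).trace = algebraMap k₀ F (ρ₀ g).trace := by
      simp [Matrix.trace_fin_two]
    have h2 : (ρ₀ g).map (algebraMap k₀ F) = U⁻¹ * (ρ g * U) := by
      rw [← key, ← Matrix.mul_assoc, Matrix.nonsing_inv_mul _ hUu, Matrix.one_mul]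
    rw [← h1, h2, Matrix.trace_mul_comm, Matrix.mul_assoc, Matrix.mul_nonsing_inv _ hUu,
      Matrix.mul_one]
  · intro g
    show algebraMap k₀ F (ρ₀ g).det = _
    have h1 := RingHom.map_det (algebraMap k₀ F) (ρ₀ g)
    rw [RingHom.mapMatrix_apply] at h1
    have h2 := congrArg Matrix.det (key g)
    rw [Matrix.det_mul, Matrix.det_mul, mul_comm] at h2
    rw [h1]
    exact mul_right_cancel₀ hU h2
  · intro g hg
    show ρ₀ g = 1
    apply hinj
    apply cancel
    simp only
    rw [key, hg, Matrix.one_mul, Matrix.map_one _ (map_zero _) (map_one _), Matrix.mul_one]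

/-- descent in the absolutely irreducible case -/
theorem ter_descends_of_span [Finite k₀] (ρ : G →* Matrix (Fin 2) (Fin 2) F)
    (htr : ∀ g, ∃ a : k₀, algebraMap k₀ F a = (ρ g).trace)
    (hno : ∀ v : Fin 2 → F, v ≠ 0 → ∃ g, terPerp v ⬝ᵥ (ρ g *ᵥ v) ≠ 0)
    (hspan : Submodule.span F (Set.range ρ) = ⊤) : TerDescends k₀ ρ := by
  classical
  -- a basis of `M₂(F)` consisting of matrices `ρ(g)`
  obtain ⟨b, hbsub, hbspan, hbli⟩ := exists_linearIndependent F (Set.range ρ)
  have hbtop : ⊤ ≤ Submodule.span F (Set.range (Subtype.val : ↥b → Matrix (Fin 2) (Fin 2) F)) := by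
    rw [Subtype.range_coe, hbspan, hspan]
  set bas : Module.Basis ↥b F (Matrix (Fin 2) (Fin 2) F) := Module.Basis.mk hbli hbtop with hbasdef
  haveI : Fintype ↥b := FiniteDimensional.fintypeBasisIndex bas
  have hbas : ∀ i : ↥b, ∃ g, ρ g = bas i := by
    intro i
    rw [hbasdef, Module.Basis.mk_apply]
    exact hbsub i.2
  choose gs hgs using hbas
  -- the Gram matrix
  have hT : ∀ i j : ↥b, ∃ t : k₀, algebraMap k₀ F t = (bas i * bas j).trace := by
    intro i j
    rw [← hgs, ← hgs, ← map_mul]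
    exact htr _
  choose T₀ hT₀ using hT
  have hcoef : ∀ g, ∃ c₀ : ↥b → k₀, ρ g = ∑ j, c₀ j • bas j := by
    intro g
    have hτ : ∀ i : ↥b, ∃ t : k₀, algebraMap k₀ F t = (bas i * ρ g).trace := by
      intro i
      rw [← hgs, ← map_mul]
      exact htr _
    choose τ₀ hτ₀ using hτ
    exact ter_coeff_mem bas (Matrix.of T₀) (fun i j => hT₀ i j) (ρ g) τ₀ hτ₀
  -- the `k₀`-form of the matrix algebra
  set S : Submodule k₀ (Matrix (Fin 2) (Fin 2) F) := Submodule.span k₀ (Set.range bas) with hS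
  have hbS : ∀ i, bas i ∈ S := fun i => Submodule.subset_span ⟨i, rfl⟩
  have hρS : ∀ g, ρ g ∈ S := by
    intro g
    obtain ⟨c₀, hc₀⟩ := hcoef g
    rw [hc₀]
    exact S.sum_mem fun j _ => S.smul_mem _ (hbS j)
  have hmul : ∀ x y, x ∈ S → y ∈ S → x * y ∈ S := by
    intro x y hx hy
    induction hx using Submodule.span_induction with
    | mem x hx =>
      obtain ⟨i, rfl⟩ := hx
      induction hy using Submodule.span_induction with
      | mem y hy =>
        obtain ⟨j, rfl⟩ := hy
        rw [← hgs, ← hgs, ← map_mul]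
        exact hρS _
      | zero => rw [mul_zero]; exact S.zero_mem
      | add y z _ _ hy hz => rw [mul_add]; exact S.add_mem hy hz
      | smul r y _ hy => rw [Matrix.mul_smul]; exact S.smul_mem r hy
    | zero => rw [zero_mul]; exact S.zero_mem
    | add x z _ _ hx hz => rw [add_mul]; exact S.add_mem hx hz
    | smul r x _ hx => rw [Matrix.smul_mul]; exact S.smul_mem r hx
  have h1S : (1 : Matrix (Fin 2) (Fin 2) F) ∈ S := by
    rw [← map_one ρ]
    exact hρS 1
  have htrS : ∀ x ∈ S, ∃ t : k₀, algebraMap k₀ F t = x.trace := by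
    intro x hx
    induction hx using Submodule.span_induction with
    | mem x hx =>
      obtain ⟨i, rfl⟩ := hx
      rw [← hgs]
      exact htr _
    | zero => exact ⟨0, by rw [map_zero, Matrix.trace_zero]⟩
    | add x y _ _ hx hy =>
      obtain ⟨t, ht⟩ := hx
      obtain ⟨t', ht'⟩ := hy
      exact ⟨t + t', by rw [map_add, ht, ht', Matrix.trace_add]⟩
    | smul r x _ hx =>
      obtain ⟨t, ht⟩ := hx
      exact ⟨r * t, by rw [map_mul, ht, Matrix.trace_smul, Algebra.smul_def]⟩
  -- noncommutativity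
  have hnc : ∃ x ∈ S, ∃ y ∈ S, x * y ≠ y * x := by
    by_contra hcon
    push Not at hcon
    have hall : ∀ X Y : Matrix (Fin 2) (Fin 2) F, X * Y = Y * X := by
      intro X Y
      have hX : X ∈ Submodule.span F (Set.range ρ) := by rw [hspan]; trivial
      have hY : Y ∈ Submodule.span F (Set.range ρ) := by rw [hspan]; trivial
      induction hX using Submodule.span_induction with
      | mem X hX =>
        obtain ⟨g, rfl⟩ := hX
        induction hY using Submodule.span_induction with
        | mem Y hY =>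
          obtain ⟨h, rfl⟩ := hY
          exact hcon _ (hρS g) _ (hρS h)
        | zero => rw [mul_zero, zero_mul]
        | add Y Z _ _ hY hZ => rw [mul_add, add_mul, hY, hZ]
        | smul r Y _ hY => rw [Matrix.mul_smul, Matrix.smul_mul, hY]
      | zero => rw [mul_zero, zero_mul]
      | add X Z _ _ hX hZ => rw [mul_add, add_mul, hX, hZ]
      | smul r X _ hX => rw [Matrix.mul_smul, Matrix.smul_mul, hX]
    have h01 := hall (Matrix.single 0 1 1) (Matrix.single 1 0 1)
    have := congrFun (congrFun h01 0) 0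
    simp [Matrix.mul_apply, Matrix.single_apply] at this
  obtain ⟨a, haS, ha0, hadet⟩ := ter_exists_singular S
    (Submodule.fg_span (Set.finite_range bas)) h1S hmul hnc
  obtain ⟨v, hv0, hv⟩ := Matrix.exists_mulVec_eq_zero_iff.2 hadet
  obtain ⟨w, hw, s, hs, haw⟩ := ter_rank_one ha0 hv0 hv
  obtain ⟨α, hα⟩ : ∃ α : Fin 2 → F, α = s • terPerp v := ⟨_, rfl⟩
  rw [← hα] at haw
  have hu : s • v ≠ 0 := smul_ne_zero hs hv0
  have hαu : α = terPerp (s • v) := by rw [terPerp_smul, hα]
  obtain ⟨x₁, hx₁⟩ := hno w hw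
  obtain ⟨y₁, hy₁⟩ := hno (s • v) hu
  rw [← hαu, dotProduct_mulVec] at hy₁
  have hαα' : terPerp α ⬝ᵥ (α ᵥ* ρ y₁) ≠ 0 := by
    rw [hαu, terPerp_perp, neg_dotProduct, neg_ne_zero, dotProduct_comm, ← hαu]
    exact hy₁
  -- the key integrality
  have key : ∀ h : G, ∃ t : k₀, algebraMap k₀ F t = α ⬝ᵥ (ρ h *ᵥ w) := by
    intro h
    have h1 : α ⬝ᵥ (ρ h *ᵥ w) = (ρ h * a).trace := by
      have := ter_mul_vecMulVec_mul (ρ h) 1 w α
      rw [mul_one, vecMul_one] at this
      rw [haw, this, ter_trace_vecMulVec]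
    rw [h1]
    exact htrS _ (hmul _ _ (hρS h) haS)
  set xs : Fin 2 → G := ![1, x₁] with hxs
  set ys : Fin 2 → G := ![1, y₁] with hys
  set U : Matrix (Fin 2) (Fin 2) F := Matrix.of fun l j => (ρ (xs j) *ᵥ w) l with hUdef
  set R : Matrix (Fin 2) (Fin 2) F := Matrix.of fun i l => (α ᵥ* ρ (ys i)) l with hRdef
  have hentry : ∀ (g : G) (i j : Fin 2),
      (R * ρ g * U) i j = α ⬝ᵥ (ρ (ys i * g * xs j) *ᵥ w) := by
    intro g i j
    have h1 : (R * ρ g * U) i j = (α ᵥ* ρ (ys i)) ⬝ᵥ (ρ g *ᵥ (ρ (xs j) *ᵥ w)) := by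
      simp only [hUdef, hRdef, Matrix.mul_apply, Matrix.of_apply, dotProduct, mulVec,
        Fin.sum_univ_two]
      ring
    rw [h1, ← dotProduct_mulVec, mulVec_mulVec, mulVec_mulVec, ← map_mul, ← map_mul, mul_assoc]
  have hUdet : U.det ≠ 0 := by
    have : U.det = terPerp w ⬝ᵥ (ρ x₁ *ᵥ w) := by
      rw [Matrix.det_fin_two, terPerp_dot]
      simp [hUdef, hxs]
      ring
    rw [this]
    exact hx₁
  have hRdet : R.det ≠ 0 := by
    have : R.det = terPerp α ⬝ᵥ (α ᵥ* ρ y₁) := by
      rw [Matrix.det_fin_two, terPerp_dot]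
      simp [hRdef, hys]
    rw [this]
    exact hαα'
  refine ter_descends_of_conj ρ U R hUdet hRdet fun g => ?_
  choose t ht using fun ij : Fin 2 × Fin 2 => key (ys ij.1 * g * xs ij.2)
  refine ⟨Matrix.of fun i j => t (i, j), ?_⟩
  ext i j
  rw [Matrix.map_apply, Matrix.of_apply, ht (i, j), hentry]

end Fermat.Agent.T1
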