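/-
T1-E (E-d), helper8: **descent of two-dimensional representations to a finite subfield**.

`ter_descent` : let `k₀` be a finite field, `F` an extension field, `V` a two-dimensional
`F`-vector space and `ρ : G →* End_F(V)` a representation of a group all of whose characteristic
polynomials have coefficients in `k₀`.  Then there is a two-dimensional representation `ρ₀` over
`k₀` with the same characteristic polynomials, trivial on the kernel of `ρ`.
(`ρ₀ ⊗ F̄` is the semisimplification of `ρ ⊗ F̄`.)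
-/
import Fermat.Agent.Lib.T1.Asm.Res.DescentIrr

set_option autoImplicit false
set_option linter.style.haveILetI false
set_option linter.unusedSectionVars false

open Matrix Polynomial

namespace Fermat.Agent.T1

/-- the matrix form over an algebraically closed field -/
theorem ter_descends_matrix {k₀ F : Type*} [Field k₀] [Finite k₀] [Field F] [Algebra k₀ F]
    [IsAlgClosed F] {G : Type*} [Group G] (ρ : G →* Matrix (Fin 2) (Fin 2) F)
    (htr : ∀ g, ∃ a : k₀, algebraMap k₀ F a = (ρ g).trace)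
    (hdet : ∀ g, ∃ a : k₀, algebraMap k₀ F a = (ρ g).det) : TerDescends k₀ ρ := by
  classical
  by_cases hev : ∃ v : Fin 2 → F, v ≠ 0 ∧ ∀ g, ∃ x : F, ρ g *ᵥ v = x • v
  · obtain ⟨v, hv, hc⟩ := hev
    choose c hc using hc
    exact ter_descends_of_eigen ρ htr hdet v hv c hc
  · have hno : ∀ v : Fin 2 → F, v ≠ 0 → ∃ g, terPerp v ⬝ᵥ (ρ g *ᵥ v) ≠ 0 := by
      intro v hv
      by_contra hcon
      push Not at hcon
      apply hev
      refine ⟨v, hv, fun g => ?_⟩
      obtain ⟨s, hs⟩ := ter_eq_smul_of_perp hv (hcon g)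
      exact ⟨s, hs⟩
    have hns : ∃ g₁, ∀ lam : F, ρ g₁ ≠ lam • (1 : Matrix (Fin 2) (Fin 2) F) := by
      by_contra hcon
      push Not at hcon
      apply hev
      refine ⟨Pi.single 0 1, ?_, fun g => ?_⟩
      · intro h
        have := congrFun h 0
        simp at this
      · obtain ⟨lam, hlam⟩ := hcon g
        exact ⟨lam, by rw [hlam, smul_mulVec, one_mulVec]⟩
    obtain ⟨g₁, hg₁⟩ := hns
    obtain ⟨μ, hμ⟩ := Module.End.exists_eigenvalue (Matrix.toLin' (ρ g₁))
    obtain ⟨v₁, hv₁⟩ := hμ.exists_hasEigenvector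
    have hspan := ter_burnside ρ hno ⟨g₁, v₁, μ, hv₁.2, by
      have := hv₁.apply_eq_smul
      rwa [Matrix.toLin'_apply] at this, hg₁ μ⟩
    exact ter_descends_of_span ρ htr hno hspan

/-- **the descent lemma** -/
theorem ter_descent {k₀ F : Type} [Field k₀] [Finite k₀] [Field F] [Algebra k₀ F] {G : Type*}
    [Group G] {V : Type} [AddCommGroup V] [Module F V] [Module.Finite F V]
    (hV : Module.finrank F V = 2) (ρ : G →* Module.End F V)
    (hcp : ∀ g, ∃ P : k₀[X], P.map (algebraMap k₀ F) = LinearMap.charpoly (ρ g)) :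
    ∃ ρ₀ : G →* Module.End k₀ (Fin 2 → k₀),
      (∀ g, (LinearMap.charpoly (ρ₀ g)).map (algebraMap k₀ F) = LinearMap.charpoly (ρ g)) ∧
      ∀ g, ρ g = 1 → ρ₀ g = 1 := by
  classical
  let bV : Module.Basis (Fin 2) F V := Module.finBasisOfFinrankEq F V hV
  let Fb := AlgebraicClosure F
  let ι : F →+* Fb := algebraMap F Fb
  -- the matrix representation
  let M : G →* Matrix (Fin 2) (Fin 2) F :=
    ((LinearMap.toMatrixAlgEquiv bV : Module.End F V ≃ₐ[F] Matrix (Fin 2) (Fin 2) F) :
      Module.End F V →* Matrix (Fin 2) (Fin 2) F).comp ρ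
  have hM : ∀ g, M g = LinearMap.toMatrix bV bV (ρ g) := fun g => rfl
  have hMcp : ∀ g, (M g).charpoly = LinearMap.charpoly (ρ g) := by
    intro g
    rw [hM, LinearMap.charpoly_toMatrix]
  let Mb : G →* Matrix (Fin 2) (Fin 2) Fb :=
    (ι.mapMatrix : Matrix (Fin 2) (Fin 2) F →+* Matrix (Fin 2) (Fin 2) Fb).toMonoidHom.comp M
  have hMb : ∀ g, Mb g = (M g).map ι := fun g => rfl
  -- traces and determinants
  have htrdet : ∀ g, ∃ t d : k₀, algebraMap k₀ F t = (M g).trace ∧ algebraMap k₀ F d = (M g).det := by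
    intro g
    obtain ⟨P, hP⟩ := hcp g
    rw [← hMcp, Matrix.charpoly_fin_two] at hP
    refine ⟨-P.coeff 1, P.coeff 0, ?_, ?_⟩
    · have := congrArg (fun Q => Q.coeff 1) hP
      simp only [coeff_map] at this
      rw [map_neg, this]
      simp [coeff_X, coeff_C]
    · have := congrArg (fun Q => Q.coeff 0) hP
      simp only [coeff_map] at this
      rw [this]
      simp [coeff_X, coeff_C]
  have htr : ∀ g, ∃ a : k₀, algebraMap k₀ Fb a = (Mb g).trace := by
    intro g
    obtain ⟨t, -, ht, -⟩ := htrdet g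
    refine ⟨t, ?_⟩
    rw [hMb, IsScalarTower.algebraMap_apply k₀ F Fb, ht]
    simp [Matrix.trace_fin_two, ι]
  have hdet : ∀ g, ∃ a : k₀, algebraMap k₀ Fb a = (Mb g).det := by
    intro g
    obtain ⟨-, d, -, hd⟩ := htrdet g
    refine ⟨d, ?_⟩
    rw [hMb, IsScalarTower.algebraMap_apply k₀ F Fb, hd]
    have := RingHom.map_det ι (M g)
    rw [RingHom.mapMatrix_apply] at this
    exact this
  obtain ⟨ρ₀, h1, h2, h3⟩ := ter_descends_matrix Mb htr hdet
  have hιinj : Function.Injective ι := (algebraMap F Fb).injective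
  refine ⟨((Matrix.toLinAlgEquiv' : Matrix (Fin 2) (Fin 2) k₀ ≃ₐ[k₀] Module.End k₀ (Fin 2 → k₀)) :
      Matrix (Fin 2) (Fin 2) k₀ →* Module.End k₀ (Fin 2 → k₀)).comp ρ₀, ?_, ?_⟩
  · intro g
    have hcp₀ : LinearMap.charpoly (Matrix.toLin' (ρ₀ g)) = (ρ₀ g).charpoly :=
      Matrix.charpoly_toLin' _
    show (LinearMap.charpoly (Matrix.toLin' (ρ₀ g))).map (algebraMap k₀ F) = _
    rw [hcp₀, ← hMcp, Matrix.charpoly_fin_two, Matrix.charpoly_fin_two]
    have ht : algebraMap k₀ F (ρ₀ g).trace = (M g).trace := by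
      apply hιinj
      have := h1 g
      rw [IsScalarTower.algebraMap_apply k₀ F Fb, hMb] at this
      rw [this]
      simp [Matrix.trace_fin_two, ι]
    have hd : algebraMap k₀ F (ρ₀ g).det = (M g).det := by
      apply hιinj
      have := h2 g
      rw [IsScalarTower.algebraMap_apply k₀ F Fb, hMb] at this
      rw [this]
      have := RingHom.map_det ι (M g)
      rw [RingHom.mapMatrix_apply] at this
      exact this.symm
    simp [Polynomial.map_sub, Polynomial.map_add, Polynomial.map_mul, Polynomial.map_pow, ht, hd]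
  · intro g hg
    have hMg : Mb g = 1 := by
      rw [hMb, hM, hg]
      simp [LinearMap.toMatrix_one]
    show Matrix.toLin' (ρ₀ g) = 1
    rw [h3 g hMg]
    exact Matrix.toLin'_one

end Fermat.Agent.T1
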