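/-
T1-E (E-d), helper8: **the completion of a discrete valuation ring is a complete discrete
valuation ring**.

* `ter_isDomain_of_principal`, `ter_dvr_of_principal` : a local ring whose maximal ideal is principal,
  generated by a non-nilpotent element, and which is separated for the adic topology is a discrete
  valuation ring;
* `terCompl R := AdicCompletion (maximalIdeal R) R` for a discrete valuation ring `R`, with its
  instances.
-/
import Mathlib

set_option autoImplicit false
set_option linter.style.haveILetI false
set_option linter.unusedSectionVars false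

open IsLocalRing

namespace Fermat.Agent.T1

section Principal

variable {A : Type*} [CommRing A] [IsLocalRing A]

/-- factorisation `x = π ^ n * u` in a separated local ring with principal maximal ideal -/
theorem ter_exists_pow_mul_unit (π : A) (hπ : maximalIdeal A = Ideal.span {π})
    (hH : IsHausdorff (maximalIdeal A) A) {x : A} (hx : x ≠ 0) :
    ∃ (n : ℕ) (u : A), IsUnit u ∧ x = π ^ n * u := by
  classical
  have hex : ∃ n : ℕ, x ∉ maximalIdeal A ^ n := by
    by_contra hcon
    push Not at hcon
    apply hx
    apply hH.haus'
    intro n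
    rw [SModEq.zero, smul_eq_mul, Ideal.mul_top]
    exact hcon n
  have hfind := Nat.find_spec hex
  have hmin := fun m => Nat.find_min hex (m := m)
  set n := Nat.find hex with hn
  have hn0 : n ≠ 0 := by
    intro h0
    apply hfind
    rw [h0, pow_zero, Ideal.one_eq_top]
    trivial
  obtain ⟨m, hm⟩ : ∃ m, n = m + 1 := ⟨n - 1, by omega⟩
  have hxm : x ∈ maximalIdeal A ^ m := by
    by_contra h
    exact hmin m (by omega) h
  rw [hπ, Ideal.span_singleton_pow, Ideal.mem_span_singleton] at hxm
  obtain ⟨u, hu⟩ := hxm
  refine ⟨m, u, ?_, hu⟩
  by_contra hnu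
  have humem : u ∈ maximalIdeal A := (mem_maximalIdeal u).2 hnu
  apply hfind
  rw [hm, pow_succ, hu]
  refine Ideal.mul_mem_mul ?_ humem
  rw [hπ, Ideal.span_singleton_pow]
  exact Ideal.mem_span_singleton_self _

theorem ter_isDomain_of_principal (π : A) (hπ : maximalIdeal A = Ideal.span {π})
    (hH : IsHausdorff (maximalIdeal A) A) (hnil : ∀ n : ℕ, π ^ n ≠ 0) : IsDomain A := by
  haveI : NoZeroDivisors A := by
    refine ⟨fun {x y} hxy => ?_⟩
    by_contra hne
    push Not at hne
    obtain ⟨a, u, hu, rfl⟩ := ter_exists_pow_mul_unit π hπ hH hne.1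
    obtain ⟨b, w, hw, rfl⟩ := ter_exists_pow_mul_unit π hπ hH hne.2
    have h1 : π ^ (a + b) * (u * w) = 0 := by
      rw [← hxy, pow_add]
      ring
    have h2 : π ^ (a + b) = 0 := by
      have := (hu.mul hw).mul_left_eq_zero.1 h1
      exact this
    exact hnil _ h2
  exact { }

theorem ter_dvr_of_principal [IsDomain A] (π : A) (hπ : maximalIdeal A = Ideal.span {π})
    (hH : IsHausdorff (maximalIdeal A) A) (hπ0 : π ≠ 0) : IsDiscreteValuationRing A := by
  apply IsDiscreteValuationRing.ofHasUnitMulPowIrreducibleFactorization
  have hπm : π ∈ maximalIdeal A := by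
    rw [hπ]
    exact Ideal.mem_span_singleton_self _
  have hπnu : ¬ IsUnit π := (mem_maximalIdeal π).1 hπm
  refine ⟨π, ⟨hπnu, ?_⟩, ?_⟩
  · intro a b hab
    by_contra hcon
    push Not at hcon
    have ha : a ∈ maximalIdeal A := (mem_maximalIdeal a).2 hcon.1
    have hb : b ∈ maximalIdeal A := (mem_maximalIdeal b).2 hcon.2
    rw [hπ, Ideal.mem_span_singleton] at ha hb
    obtain ⟨a', rfl⟩ := ha
    obtain ⟨b', rfl⟩ := hb
    have h1 : π * (1 - π * (a' * b')) = 0 := by
      linear_combination hab
    rcases mul_eq_zero.1 h1 with h | h
    · exact hπ0 h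
    · apply hπnu
      have h2 : π * (a' * b') = 1 := by linear_combination -h
      exact IsUnit.of_mul_eq_one _ h2
  · intro x hx
    obtain ⟨n, u, hu, rfl⟩ := ter_exists_pow_mul_unit π hπ hH hx
    exact ⟨n, hu.unit, rfl⟩

end Principal

section Completion

variable (R : Type*) [CommRing R] [IsDomain R] [IsDiscreteValuationRing R]

/-- the completion of a discrete valuation ring -/
abbrev terCompl : Type _ := AdicCompletion (maximalIdeal R) R

theorem terCompl_algebraMap_injective : Function.Injective (algebraMap R (terCompl R)) := by
  have : Function.Injective (AdicCompletion.of (maximalIdeal R) R) :=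
    AdicCompletion.of_injective (maximalIdeal R) R
  exact this

theorem terCompl_maximalIdeal (π : R) (hπ : Irreducible π) :
    maximalIdeal (terCompl R) = Ideal.span {algebraMap R (terCompl R) π} := by
  rw [AdicCompletion.maximalIdeal_eq_map]
  have h := (IsDiscreteValuationRing.irreducible_iff_uniformizer π).1 hπ
  have h2 : Ideal.map (algebraMap R (terCompl R)) (maximalIdeal R) =
      Ideal.map (algebraMap R (terCompl R)) (Ideal.span {π}) := congrArg _ h
  rw [h2, Ideal.map_span, Set.image_singleton]

instance terCompl_isDomain : IsDomain (terCompl R) := by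
  obtain ⟨π, hπ⟩ := IsDiscreteValuationRing.exists_irreducible R
  refine ter_isDomain_of_principal _ (terCompl_maximalIdeal R π hπ) inferInstance ?_
  intro n h
  rw [← map_pow, ← map_zero (algebraMap R (terCompl R))] at h
  exact pow_ne_zero n hπ.ne_zero (terCompl_algebraMap_injective R h)

instance terCompl_dvr : IsDiscreteValuationRing (terCompl R) := by
  obtain ⟨π, hπ⟩ := IsDiscreteValuationRing.exists_irreducible R
  refine ter_dvr_of_principal _ (terCompl_maximalIdeal R π hπ) inferInstance ?_
  intro h
  rw [← map_zero (algebraMap R (terCompl R))] at h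
  exact hπ.ne_zero (terCompl_algebraMap_injective R h)

instance terCompl_charZero [CharZero R] : CharZero (terCompl R) :=
  charZero_of_injective_algebraMap (terCompl_algebraMap_injective R)

theorem terCompl_finite_residueField [Finite (ResidueField R)] :
    Finite (ResidueField (terCompl R)) :=
  Finite.of_surjective _ (AdicCompletion.residueField_map_bijective R).2

end Completion

end Fermat.Agent.T1
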