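/-
T1-E (E-d), helper8: **a complete discrete valuation ring carrying an integral eigensystem**.

`ter_exists_dvr` : let `𝕋` be a commutative ring which is finite over `ℤ`,
`χ₀ : 𝕋 →+* integralClosure ℤ ℂ` a ring homomorphism and `φ : integralClosure ℤ ℂ →+* k` a ring
homomorphism to a field of characteristic `p`.  Then there are a complete discrete valuation ring
`𝒪` of characteristic zero with finite residue field, `p ∈ 𝔪`, a ring homomorphism `χ : 𝕋 →+* 𝒪` and
an embedding `ι` of the residue field of `𝒪` into `k` such that `ι (χ t mod 𝔪) = φ (χ₀ t)`.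
(`𝒪` is the completion of the ring of integers of the number field generated by the image of `χ₀`
at the prime `ker φ`.)
-/
import Fermat.Agent.Lib.T1.Asm.Res.CompleteDVR

set_option autoImplicit false
set_option linter.style.haveILetI false
set_option linter.unusedSectionVars false
set_option linter.overlappingInstances false

open IsLocalRing

namespace Fermat.Agent.T1

/-- a complete discrete valuation ring from a Dedekind domain and a ring homomorphism to a field of
characteristic `p` -/
theorem ter_exists_dvr_of_dedekind {B : Type} [CommRing B] [IsDomain B] [IsDedekindDomain B]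
    [CharZero B] (hfin : ∀ I : Ideal B, I ≠ ⊥ → Finite (B ⧸ I)) {p : ℕ} (hp : p.Prime)
    {k : Type} [Field k] [CharP k p] (ψ : B →+* k) :
    ∃ (𝒪 : Type) (_ : CommRing 𝒪) (_ : IsDomain 𝒪) (_ : IsDiscreteValuationRing 𝒪)
      (_ : IsAdicComplete (maximalIdeal 𝒪) 𝒪) (_ : Finite (ResidueField 𝒪)) (_ : CharZero 𝒪)
      (j : B →+* 𝒪) (ι : ResidueField 𝒪 →+* k),
      (p : 𝒪) ∈ maximalIdeal 𝒪 ∧ ∀ b, ι (residue 𝒪 (j b)) = ψ b := by
  classical
  set v : Ideal B := RingHom.ker ψ with hv
  haveI hvprime : v.IsPrime := RingHom.ker_isPrime ψ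
  have hpv : (p : B) ∈ v := by
    rw [hv, RingHom.mem_ker, map_natCast, CharP.cast_eq_zero]
  have hv0 : v ≠ ⊥ := by
    intro h0
    rw [h0, Ideal.mem_bot] at hpv
    exact hp.ne_zero (by exact_mod_cast hpv)
  haveI hvmax : v.IsMaximal := hvprime.isMaximal hv0
  let R := Localization.AtPrime v
  haveI : IsDomain R := IsLocalization.isDomain_localization v.primeCompl_le_nonZeroDivisors
  haveI : IsDiscreteValuationRing R :=
    IsLocalization.AtPrime.isDiscreteValuationRing_of_dedekind_domain B hv0 R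
  have hinj : Function.Injective (algebraMap B R) :=
    IsLocalization.injective R v.primeCompl_le_nonZeroDivisors
  haveI : CharZero R := charZero_of_injective_algebraMap hinj
  haveI : Finite (B ⧸ v) := hfin v hv0
  haveI : Finite (ResidueField R) :=
    Finite.of_equiv _ (IsLocalization.AtPrime.equivQuotMaximalIdeal v R).toEquiv
  -- the extension of `ψ` to `R`
  have hunit : ∀ y : v.primeCompl, IsUnit (ψ y) := by
    intro y
    rw [isUnit_iff_ne_zero]
    intro h0
    exact y.2 (RingHom.mem_ker.2 h0)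
  let ψR : R →+* k := IsLocalization.lift hunit
  have hψR : ∀ b, ψR (algebraMap B R b) = ψ b := fun b => IsLocalization.lift_eq hunit b
  have hker : ∀ x ∈ maximalIdeal R, ψR x = 0 := by
    have hle : maximalIdeal R ≤ RingHom.ker ψR := by
      rw [← Localization.AtPrime.map_eq_maximalIdeal, Ideal.map_le_iff_le_comap]
      intro b hb
      rw [Ideal.mem_comap, RingHom.mem_ker, hψR]
      exact RingHom.mem_ker.1 hb
    intro x hx
    exact RingHom.mem_ker.1 (hle hx)
  -- the completion
  let 𝒪 := terCompl R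
  haveI : Finite (ResidueField 𝒪) := terCompl_finite_residueField R
  -- the map to `k`
  let ψ1 : R ⧸ maximalIdeal R →+* k := Ideal.Quotient.lift (maximalIdeal R) ψR hker
  let Ψ : 𝒪 →+* k := ψ1.comp (AdicCompletion.evalOneₐ (maximalIdeal R)).toRingHom
  have hΨ : ∀ r : R, Ψ (algebraMap R 𝒪 r) = ψR r := by
    intro r
    show ψ1 (AdicCompletion.evalOneₐ (maximalIdeal R) (AdicCompletion.of (maximalIdeal R) R r)) = _
    rw [AdicCompletion.evalOneₐ_of]
    rfl
  have hΨker : ∀ x ∈ maximalIdeal 𝒪, Ψ x = 0 := by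
    have hle : maximalIdeal 𝒪 ≤ RingHom.ker Ψ := by
      rw [AdicCompletion.maximalIdeal_eq_map, Ideal.map_le_iff_le_comap]
      intro r hr
      rw [Ideal.mem_comap, RingHom.mem_ker, hΨ]
      exact hker r hr
    intro x hx
    exact RingHom.mem_ker.1 (hle hx)
  refine ⟨𝒪, inferInstance, inferInstance, inferInstance, inferInstance, inferInstance,
    inferInstance, (algebraMap R 𝒪).comp (algebraMap B R),
    Ideal.Quotient.lift (maximalIdeal 𝒪) Ψ hΨker, ?_, ?_⟩
  · have h1 : (p : 𝒪) = algebraMap R 𝒪 (algebraMap B R (p : B)) := by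
      rw [map_natCast, map_natCast]
    rw [h1, AdicCompletion.maximalIdeal_eq_map]
    apply Ideal.mem_map_of_mem
    rw [← Localization.AtPrime.map_eq_maximalIdeal]
    exact Ideal.mem_map_of_mem _ hpv
  · intro b
    show Ψ (algebraMap R 𝒪 (algebraMap B R b)) = ψ b
    rw [hΨ, hψR]

open NumberField in
/-- **a complete discrete valuation ring carrying a given integral eigensystem modulo `p`** -/
theorem ter_exists_dvr {𝕋 : Type} [CommRing 𝕋] [Module.Finite ℤ 𝕋]
    (χ₀ : 𝕋 →+* integralClosure ℤ ℂ) {p : ℕ} (hp : p.Prime) {k : Type} [Field k] [CharP k p]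
    (φ : integralClosure ℤ ℂ →+* k) :
    ∃ (𝒪 : Type) (_ : CommRing 𝒪) (_ : IsDomain 𝒪) (_ : IsDiscreteValuationRing 𝒪)
      (_ : IsAdicComplete (maximalIdeal 𝒪) 𝒪) (_ : Finite (ResidueField 𝒪)) (_ : CharZero 𝒪)
      (χ : 𝕋 →+* 𝒪) (ι : ResidueField 𝒪 →+* k),
      (p : 𝒪) ∈ maximalIdeal 𝒪 ∧ ∀ t, ι (residue 𝒪 (χ t)) = φ (χ₀ t) := by
  classical
  obtain ⟨s, hs⟩ := (Module.Finite.fg_top : (⊤ : Submodule ℤ 𝕋).FG)
  let cR : 𝕋 →+* ℂ := (algebraMap (integralClosure ℤ ℂ) ℂ).comp χ₀
  have hcint : ∀ t, IsIntegral ℤ (cR t) := fun t => (χ₀ t).2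
  let K : IntermediateField ℚ ℂ := IntermediateField.adjoin ℚ (cR '' (s : Set 𝕋))
  haveI : Finite (cR '' (s : Set 𝕋)) := (s.finite_toSet.image cR).to_subtype
  haveI hfd : FiniteDimensional ℚ K := IntermediateField.finiteDimensional_adjoin (by
    rintro x ⟨t, -, rfl⟩
    exact (hcint t).tower_top)
  have hmem : ∀ t, cR t ∈ K := by
    intro t
    have ht : t ∈ Submodule.span ℤ (s : Set 𝕋) := by rw [hs]; trivial
    induction ht using Submodule.span_induction with
    | mem t ht => exact IntermediateField.subset_adjoin ℚ _ ⟨t, ht, rfl⟩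
    | zero => rw [map_zero]; exact K.zero_mem
    | add x y _ _ hx hy => rw [map_add]; exact K.add_mem hx hy
    | smul n x _ hx =>
      rw [zsmul_eq_mul, map_mul, map_intCast]
      exact K.mul_mem (K.intCast_mem n) hx
  haveI : NumberField ↥K := { to_charZero := inferInstance, to_finiteDimensional := hfd }
  let jB : 𝓞 ↥K →+* integralClosure ℤ ℂ := RingOfIntegers.mapRingHom (K.val : ↥K →+* ℂ)
  let χB : 𝕋 →+* 𝓞 ↥K :=
    { toFun := fun t => ⟨⟨cR t, hmem t⟩, by
        have h := hcint t
        show IsIntegral ℤ (⟨cR t, hmem t⟩ : ↥K)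
        rw [← isIntegral_algebraMap_iff (algebraMap ↥K ℂ).injective]
        exact h⟩
      map_one' := by
        apply RingOfIntegers.ext
        apply Subtype.ext
        simp
      map_mul' := by
        intro x y
        apply RingOfIntegers.ext
        apply Subtype.ext
        simp
      map_zero' := by
        apply RingOfIntegers.ext
        apply Subtype.ext
        simp
      map_add' := by
        intro x y
        apply RingOfIntegers.ext
        apply Subtype.ext
        simp }
  have hjχ : ∀ t, jB (χB t) = χ₀ t := by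
    intro t
    apply Subtype.ext
    rfl
  obtain ⟨𝒪, i1, i2, i3, i4, i5, i6, j, ι, hp𝒪, hι⟩ :=
    ter_exists_dvr_of_dedekind (B := 𝓞 ↥K) (fun I hI => Ideal.finiteQuotientOfFreeOfNeBot I hI) hp
      (φ.comp jB)
  refine ⟨𝒪, i1, i2, i3, i4, i5, i6, j.comp χB, ι, hp𝒪, fun t => ?_⟩
  rw [RingHom.comp_apply, hι, RingHom.comp_apply, hjχ]

end Fermat.Agent.T1
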