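/-
T1-E (E-d), helper8: **the Hecke eigencharacter of a normalised eigenform**.

The Prelude's `CuspForm.IsNormalizedEigenform` is a condition on the `q`-coefficients only.  We show
that such a form `g` is an eigenvector of all `T_ℓ` (`ℓ ∤ N`) and `U_q` (`q ∣ N`), hence of the
whole Hecke algebra `heckeAlgebra N 2 S`, and that the eigencharacter
`terEigenChar hg S : heckeAlgebra N 2 S →+* integralClosure ℤ ℂ` takes `T_ℓ` to `a_ℓ(g)`.
-/
import Fermat.Agent.Lib.Helper8.HeckeQCoeff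
import Fermat.Agent.Lib.S22.HeckeFinite

set_option autoImplicit false
set_option linter.style.haveILetI false
set_option linter.unusedSectionVars false

namespace Fermat.Agent.T1

open ModularFormClass Fermat.Agent.Lib.Helper8 CuspForm

local notation "Γ₀(" N ")" => CongruenceSubgroup.Gamma0 N

variable {N : ℕ} {g : CuspForm Γ₀(N) 2}

/-- `a_{n ℓ} + ℓ a_{n/ℓ} = a_ℓ a_n` for `ℓ ∤ N` -/
theorem ter_qCoeff_mul_prime (hg : g.IsNormalizedEigenform) {ℓ : ℕ} (hℓ : ℓ.Prime) (hℓN : ¬ ℓ ∣ N)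
    (n : ℕ) :
    qCoeff ⇑g (n * ℓ) + (if ℓ ∣ n then (ℓ : ℂ) * qCoeff ⇑g (n / ℓ) else 0) =
      qCoeff ⇑g ℓ * qCoeff ⇑g n := by
  rcases Nat.eq_zero_or_pos n with rfl | hn
  · simp [h8_qCoeff_zero_eq]
  obtain ⟨r, m, hm, rfl⟩ := Nat.exists_eq_pow_mul_and_not_dvd hn.ne' ℓ hℓ.ne_one
  have hcop : ∀ e : ℕ, (ℓ ^ e).Coprime m :=
    fun e => Nat.Coprime.pow_left e ((Nat.Prime.coprime_iff_not_dvd hℓ).2 hm)
  rcases Nat.eq_zero_or_pos r with rfl | hr
  · rw [pow_zero, one_mul, if_neg hm, add_zero, mul_comm m ℓ]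
    have := hg.qCoeff_mul_of_coprime ℓ m (by simpa using hcop 1)
    rw [this]
  · obtain ⟨s, rfl⟩ : ∃ s, r = s + 1 := ⟨r - 1, by omega⟩
    have hdvd : ℓ ∣ ℓ ^ (s + 1) * m := Dvd.dvd.mul_right (dvd_pow_self ℓ (by omega)) m
    rw [if_pos hdvd]
    have h1 : ℓ ^ (s + 1) * m * ℓ = ℓ ^ (s + 2) * m := by ring
    have h2 : ℓ ^ (s + 1) * m / ℓ = ℓ ^ s * m := by
      rw [pow_succ, mul_comm (ℓ ^ s) ℓ, mul_assoc, Nat.mul_div_cancel_left _ hℓ.pos]
    rw [h1, h2, hg.qCoeff_mul_of_coprime _ _ (hcop (s + 2)), hg.qCoeff_mul_of_coprime _ _ (hcop s),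
      hg.qCoeff_mul_of_coprime _ _ (hcop (s + 1)), hg.qCoeff_prime_pow_of_not_dvd ℓ s hℓ hℓN]
    ring

/-- `a_{n q} = a_q a_n` for `q ∣ N` -/
theorem ter_qCoeff_mul_prime_dvd (hg : g.IsNormalizedEigenform) {q : ℕ} (hq : q.Prime) (hqN : q ∣ N)
    (n : ℕ) : qCoeff ⇑g (n * q) = qCoeff ⇑g q * qCoeff ⇑g n := by
  rcases Nat.eq_zero_or_pos n with rfl | hn
  · simp [h8_qCoeff_zero_eq]
  obtain ⟨r, m, hm, rfl⟩ := Nat.exists_eq_pow_mul_and_not_dvd hn.ne' q hq.ne_one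
  have hcop : ∀ e : ℕ, (q ^ e).Coprime m :=
    fun e => Nat.Coprime.pow_left e ((Nat.Prime.coprime_iff_not_dvd hq).2 hm)
  have h1 : q ^ r * m * q = q ^ (r + 1) * m := by ring
  rw [h1, hg.qCoeff_mul_of_coprime _ _ (hcop (r + 1)), hg.qCoeff_mul_of_coprime _ _ (hcop r)]
  rcases Nat.eq_zero_or_pos r with rfl | hr
  · rw [zero_add, pow_one, pow_zero, hg.qCoeff_one]
    ring
  · obtain ⟨s, rfl⟩ : ∃ s, r = s + 1 := ⟨r - 1, by omega⟩
    rw [hg.qCoeff_prime_pow_of_dvd q s hq hqN]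
    ring

variable [NeZero N]

/-- a normalised eigenform is an eigenvector of `T_ℓ` -/
theorem ter_heckeTLin_eigen (hg : g.IsNormalizedEigenform) {ℓ : ℕ} (hℓ : ℓ.Prime) (hℓN : ¬ ℓ ∣ N) :
    heckeTLin 2 hℓ hℓN g = qCoeff ⇑g ℓ • g := by
  rw [← sub_eq_zero]
  apply h8_eq_zero_of_qCoeff
  intro n
  rw [h8_qCoeff_sub, h8_qCoeff_heckeTLin hℓ hℓN, h8_qCoeff_smul, ← ter_qCoeff_mul_prime hg hℓ hℓN n,
    sub_eq_zero]
  norm_num

/-- a normalised eigenform is an eigenvector of `U_q` -/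
theorem ter_heckeULin_eigen (hg : g.IsNormalizedEigenform) {q : ℕ} (hq : q.Prime) (hqN : q ∣ N) :
    heckeULin 2 hqN g = qCoeff ⇑g q • g := by
  rw [← sub_eq_zero]
  apply h8_eq_zero_of_qCoeff
  intro n
  rw [h8_qCoeff_sub, h8_qCoeff_heckeULin hq hqN, h8_qCoeff_smul, ter_qCoeff_mul_prime_dvd hg hq hqN,
    sub_self]

/-- a normalised eigenform is an eigenvector of the whole Hecke algebra -/
theorem ter_heckeAlgebra_eigen (hg : g.IsNormalizedEigenform) (S : Set ℕ)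
    (t : Module.End ℂ (CuspForm Γ₀(N) 2)) (ht : t ∈ heckeAlgebra N 2 S) :
    t g = qCoeff ⇑(t g) 1 • g := by
  have key : ∃ c : ℂ, t g = c • g := by
    induction ht using Algebra.adjoin_induction with
    | mem t ht =>
      rcases ht with ⟨ℓ, hℓ, hℓN, -, rfl⟩ | ⟨q, hqN, hq, -, rfl⟩
      · exact ⟨_, ter_heckeTLin_eigen hg hℓ hℓN⟩
      · exact ⟨_, ter_heckeULin_eigen hg hq hqN⟩
    | algebraMap r =>
      refine ⟨(r : ℂ), ?_⟩
      rw [Algebra.algebraMap_eq_smul_one, LinearMap.smul_apply, Module.End.one_apply,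
        Int.cast_smul_eq_zsmul]
    | add x y _ _ hx hy =>
      obtain ⟨c, hc⟩ := hx
      obtain ⟨c', hc'⟩ := hy
      exact ⟨c + c', by rw [LinearMap.add_apply, hc, hc', add_smul]⟩
    | mul x y _ _ hx hy =>
      obtain ⟨c, hc⟩ := hx
      obtain ⟨c', hc'⟩ := hy
      exact ⟨c' * c, by rw [Module.End.mul_apply, hc', map_smul, hc, smul_smul]⟩
  obtain ⟨c, hc⟩ := key
  rw [hc, h8_qCoeff_smul, hg.qCoeff_one, mul_one]

/-- the eigencharacter with values in `ℂ` -/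
noncomputable def terEigenCharC (hg : g.IsNormalizedEigenform) (S : Set ℕ) :
    heckeAlgebra N 2 S →+* ℂ where
  toFun t := qCoeff ⇑((t : Module.End ℂ (CuspForm Γ₀(N) 2)) g) 1
  map_one' := by
    show qCoeff ⇑((1 : Module.End ℂ (CuspForm Γ₀(N) 2)) g) 1 = 1
    rw [Module.End.one_apply, hg.qCoeff_one]
  map_mul' := by
    intro x y
    show qCoeff ⇑(((x : Module.End ℂ (CuspForm Γ₀(N) 2)) *
      (y : Module.End ℂ (CuspForm Γ₀(N) 2))) g) 1 = _
    have hy := ter_heckeAlgebra_eigen hg S y y.2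
    conv_lhs => rw [Module.End.mul_apply, hy, map_smul, h8_qCoeff_smul]
    rw [mul_comm]
  map_zero' := by
    show qCoeff ⇑((0 : Module.End ℂ (CuspForm Γ₀(N) 2)) g) 1 = 0
    rw [LinearMap.zero_apply]
    have := h8_qCoeff_smul (0 : ℂ) g 1
    rwa [zero_smul, zero_mul] at this
  map_add' := by
    intro x y
    show qCoeff ⇑(((x : Module.End ℂ (CuspForm Γ₀(N) 2)) +
      (y : Module.End ℂ (CuspForm Γ₀(N) 2))) g) 1 = _
    rw [LinearMap.add_apply, h8_qCoeff_add]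

theorem terEigenCharC_apply (hg : g.IsNormalizedEigenform) (S : Set ℕ) (t : heckeAlgebra N 2 S) :
    (t : Module.End ℂ (CuspForm Γ₀(N) 2)) g = terEigenCharC hg S t • g :=
  ter_heckeAlgebra_eigen hg S t t.2

theorem terEigenCharC_T (hg : g.IsNormalizedEigenform) (S : Set ℕ) {ℓ : ℕ} (hℓ : ℓ.Prime)
    (hℓN : ¬ ℓ ∣ N) (hℓS : ℓ ∉ S) :
    terEigenCharC hg S (heckeAlgebra.T hℓ hℓN hℓS) = qCoeff ⇑g ℓ := by
  show qCoeff ⇑(heckeTLin 2 hℓ hℓN g) 1 = _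
  rw [ter_heckeTLin_eigen hg hℓ hℓN, h8_qCoeff_smul, hg.qCoeff_one, mul_one]

theorem terEigenCharC_isIntegral (hg : g.IsNormalizedEigenform) (S : Set ℕ)
    (t : heckeAlgebra N 2 S) : IsIntegral ℤ (terEigenCharC hg S t) := by
  haveI : Module.Finite ℤ (heckeAlgebra N 2 S) := Fermat.Agent.S22Lib.moduleFinite_heckeAlgebra N 2 S
  have ht : IsIntegral ℤ t := Algebra.IsIntegral.isIntegral t
  exact ht.map (terEigenCharC hg S).toIntAlgHom

/-- **the eigencharacter** of a normalised eigenform -/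
noncomputable def terEigenChar (hg : g.IsNormalizedEigenform) (S : Set ℕ) :
    heckeAlgebra N 2 S →+* integralClosure ℤ ℂ :=
  (terEigenCharC hg S).codRestrict (integralClosure ℤ ℂ) (terEigenCharC_isIntegral hg S)

theorem terEigenChar_coe (hg : g.IsNormalizedEigenform) (S : Set ℕ) (t : heckeAlgebra N 2 S) :
    ((terEigenChar hg S t : integralClosure ℤ ℂ) : ℂ) = terEigenCharC hg S t := rfl

theorem terEigenChar_T (hg : g.IsNormalizedEigenform) (S : Set ℕ) {ℓ : ℕ} (hℓ : ℓ.Prime)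
    (hℓN : ¬ ℓ ∣ N) (hℓS : ℓ ∉ S) :
    ((terEigenChar hg S (heckeAlgebra.T hℓ hℓN hℓS) : integralClosure ℤ ℂ) : ℂ) = qCoeff ⇑g ℓ :=
  terEigenCharC_T hg S hℓ hℓN hℓS

end Fermat.Agent.T1
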