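/-
T1-E (E-d), helper8: **S30 ⟹ S29**.

`TerS30` is (a verbatim copy of) the statement S30: every eigencharacter of the Hecke algebra with
values in a complete discrete valuation ring carries a two-dimensional `p`-adic Galois
representation.  `ter_s29_of_s30 : TerS30 → (statement S29)`: the residual representation of a
normalised eigenform modulo a prime of `ℤ̄`, over an arbitrary field `k` receiving `ℤ̄`.

Steps: the eigencharacter `terEigenChar` of `g`, a complete discrete valuation ring `𝒪'` receiving it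
(`ter_exists_dvr`), the representation `ρ` over `𝒪'' ⊇ 𝒪'` given by S30, its reduction over the
residue field `κ''` of `𝒪''`; all its characteristic polynomials have coefficients in the residue
field `κ'` of `𝒪'` (`ter_charpoly_mem`, Frobenius density), hence it descends to `κ'`
(`ter_descent`); finally base change along `κ' → k`.
-/
import Fermat.Agent.Lib.T1.Asm.Res.EigenChar
import Fermat.Agent.Lib.T1.Asm.Res.ExistsDVR
import Fermat.Agent.Lib.T1.Asm.Res.CharpolyMem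
import Fermat.Agent.Lib.T1.Asm.Res.Descent
import Fermat.Prelude.Def_CuspForm_HeckeGaloisRepDatum

set_option autoImplicit false
set_option linter.style.haveILetI false
set_option linter.unusedSectionVars false

open Polynomial CuspForm IsLocalRing

namespace Fermat.Agent.T1

local notation "Qbar" => AlgebraicClosure ℚ
local notation "GQ" => (AlgebraicClosure ℚ ≃ₐ[ℚ] AlgebraicClosure ℚ)

/-- the statement S30 -/
def TerS30 : Prop :=
    ∀ (p : ℕ) [Fact p.Prime] (N : ℕ) [NeZero N] (S : Finset ℕ)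
      (_hpS : p ∈ S) (_hNS : ∀ q : ℕ, q.Prime → q ∣ N → q ∈ S)
      (𝒪' : Type) [CommRing 𝒪'] [IsDomain 𝒪'] [IsDiscreteValuationRing 𝒪']
      [IsAdicComplete (IsLocalRing.maximalIdeal 𝒪') 𝒪'] [Finite (IsLocalRing.ResidueField 𝒪')]
      [CharZero 𝒪'] (_hp𝒪' : (p : 𝒪') ∈ IsLocalRing.maximalIdeal 𝒪')
      (χ : CuspForm.heckeAlgebra N 2 (↑S : Set ℕ) →+* 𝒪'),
      ∃ (𝒪'' : Type) (_ : CommRing 𝒪'') (_ : IsDomain 𝒪'') (_ : IsDiscreteValuationRing 𝒪'')
        (_ : IsAdicComplete (IsLocalRing.maximalIdeal 𝒪'') 𝒪'')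
        (_ : Finite (IsLocalRing.ResidueField 𝒪'')) (_ : CharZero 𝒪'')
        (_ : Algebra 𝒪' 𝒪'') (_ : Module.Finite 𝒪' 𝒪'') (_ : IsLocalHom (algebraMap 𝒪' 𝒪'')),
      Function.Injective (algebraMap 𝒪' 𝒪'') ∧
      ∃ ρ : GaloisRepAdic 𝒪'',
        (∀ (ℓ : ℕ) (hℓ : ℓ.Prime) (hℓN : ¬ ℓ ∣ N) (hℓS : ℓ ∉ (↑S : Set ℕ)),
          ∀ A : ValuationSubring (AlgebraicClosure ℚ), A.LiesOverPrime ℓ →
            ∀ σ : AlgebraicClosure ℚ ≃ₐ[ℚ] AlgebraicClosure ℚ, A.IsFrobeniusAt σ ℓ →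
              LinearMap.charpoly (ρ.ρ σ) =
                X ^ 2 - C (algebraMap 𝒪' 𝒪'' (χ (CuspForm.heckeAlgebra.T hℓ hℓN hℓS))) * X
                  + C ((ℓ : 𝒪''))) ∧
        (∀ q : ℕ, q.Prime → ¬ q ∣ N → q ≠ p → ρ.IsUnramifiedAt q)

/-- the trivial two-dimensional residual representation -/
noncomputable def terTrivialRep (k : Type) [Field k] : ResidualGaloisRep k where
  V := Fin 2 → k
  finrank_eq := by simp
  ρ := 1
  factorsThroughFiniteLevel := ⟨⊥, inferInstance, fun _ _ => rfl⟩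

/-- a residual representation from a homomorphism to `GL₂` of a field killing the kernel of another
residual representation -/
noncomputable def terRepOfHom {k₀ F : Type} [Field k₀] [Field F] (ρ : ResidualGaloisRep F)
    (ρ₀ : GQ →* Module.End k₀ (Fin 2 → k₀)) (h : ∀ g, ρ.ρ g = 1 → ρ₀ g = 1) :
    ResidualGaloisRep k₀ where
  V := Fin 2 → k₀
  finrank_eq := by simp
  ρ := ρ₀
  factorsThroughFiniteLevel := by
    obtain ⟨L, hL, h1⟩ := ρ.factorsThroughFiniteLevel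
    exact ⟨L, hL, fun σ hσ => h σ (h1 σ hσ)⟩

theorem terRepOfHom_rho {k₀ F : Type} [Field k₀] [Field F] (ρ : ResidualGaloisRep F)
    (ρ₀ : GQ →* Module.End k₀ (Fin 2 → k₀)) (h : ∀ g, ρ.ρ g = 1 → ρ₀ g = 1) (σ : GQ) :
    (terRepOfHom ρ ρ₀ h).ρ σ = ρ₀ σ := rfl

theorem ter_baseChangeAlong_rho {k k' : Type} [Field k] [Field k'] (φ : k →+* k')
    (ρ : ResidualGaloisRep k) (σ : GQ) :
    (ρ.baseChangeAlong φ).ρ σ =
      letI : Algebra k k' := φ.toAlgebra
      (ρ.ρ σ).baseChange k' := rfl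

theorem ter_charpoly_baseChangeAlong {k k' : Type} [Field k] [Field k'] (φ : k →+* k')
    (ρ : ResidualGaloisRep k) (σ : GQ) :
    LinearMap.charpoly ((ρ.baseChangeAlong φ).ρ σ) = (LinearMap.charpoly (ρ.ρ σ)).map φ := by
  letI : Algebra k k' := φ.toAlgebra
  exact LinearMap.charpoly_baseChange (ρ.ρ σ) k'

theorem ter_charpoly_residual {A : Type} [CommRing A] [IsLocalRing A] (ρ : GaloisRepAdic A)
    (σ : GQ) :
    LinearMap.charpoly (ρ.residual.ρ σ) = (LinearMap.charpoly (ρ.ρ σ)).map (residue A) :=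
  LinearMap.charpoly_baseChange (ρ.ρ σ) (ResidueField A)

/-- **S30 ⟹ S29** -/
theorem ter_s29_of_s30 (h30 : TerS30)
    {N : ℕ} {g : CuspForm (CongruenceSubgroup.Gamma0 N) 2} (hg : g.IsNormalizedEigenform)
    {p : ℕ} (hp : p.Prime) {k : Type} [Field k] [CharP k p]
    (φ : integralClosure ℤ ℂ →+* k) :
    ∃ ρ : ResidualGaloisRep k, ρ.IsAttachedTo g φ ∧
      ∀ ℓ : ℕ, ℓ.Prime → ¬ ℓ ∣ N * p → ρ.IsUnramifiedAt ℓ := by
  classical
  rcases Nat.eq_zero_or_pos N with rfl | hN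
  · refine ⟨terTrivialRep k, ?_, ?_⟩
    · intro ℓ _ hℓN
      exact absurd (dvd_zero ℓ) hℓN
    · intro ℓ _ hℓN
      exact absurd (by simp) hℓN
  haveI : NeZero N := ⟨hN.ne'⟩
  haveI : Fact p.Prime := ⟨hp⟩
  -- the finite set of bad primes
  obtain ⟨S, hS⟩ : ∃ S : Finset ℕ, S = insert p N.primeFactors := ⟨_, rfl⟩
  have hpS : p ∈ S := by rw [hS]; exact Finset.mem_insert_self _ _
  have hNS : ∀ q : ℕ, q.Prime → q ∣ N → q ∈ S := by
    intro q hq hqN
    rw [hS]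
    exact Finset.mem_insert_of_mem (Nat.mem_primeFactors.mpr ⟨hq, hqN, hN.ne'⟩)
  have hnotS : ∀ ℓ : ℕ, ℓ.Prime → ¬ ℓ ∣ N → ℓ ≠ p → ℓ ∉ (↑S : Set ℕ) := by
    intro ℓ hℓ hℓN hℓp hmem
    rw [Finset.mem_coe, hS, Finset.mem_insert] at hmem
    rcases hmem with h | h
    · exact hℓp h
    · exact hℓN (Nat.dvd_of_mem_primeFactors h)
  have hSnot : ∀ ℓ : ℕ, ℓ.Prime → ℓ ∉ S → ¬ ℓ ∣ N ∧ ℓ ≠ p := by
    intro ℓ hℓ hℓS
    refine ⟨fun h => hℓS (hNS ℓ hℓ h), ?_⟩
    rintro rfl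
    exact hℓS hpS
  -- the eigencharacter and a discrete valuation ring receiving it
  haveI : Module.Finite ℤ (heckeAlgebra N 2 (↑S : Set ℕ)) :=
    Fermat.Agent.S22Lib.moduleFinite_heckeAlgebra N 2 _
  obtain ⟨𝒪', i1, i2, i3, i4, i5, i6, χ, ι, hp𝒪', hι⟩ :=
    ter_exists_dvr (terEigenChar hg (↑S : Set ℕ)) hp φ
  -- the `p`-adic representation
  obtain ⟨𝒪'', j1, j2, j3, j4, j5, j6, j7, j8, j9, -, ρ, hFrob, hunr⟩ :=
    h30 p N S hpS hNS 𝒪' hp𝒪' χ
  -- the characteristic polynomials of the Frobenius elements of the reduction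
  have hFrobRes : ∀ (ℓ : ℕ) (hℓ : ℓ.Prime) (hℓN : ¬ ℓ ∣ N) (hℓS : ℓ ∉ (↑S : Set ℕ)),
      ∀ A : ValuationSubring Qbar, A.LiesOverPrime ℓ → ∀ σ : GQ, A.IsFrobeniusAt σ ℓ →
        LinearMap.charpoly (ρ.residual.ρ σ) =
          (X ^ 2 - C (residue 𝒪' (χ (heckeAlgebra.T hℓ hℓN hℓS))) * X + C ((ℓ : ResidueField 𝒪'))).map
            (algebraMap (ResidueField 𝒪') (ResidueField 𝒪'')) := by
    intro ℓ hℓ hℓN hℓS A hA σ hσ
    rw [ter_charpoly_residual, hFrob ℓ hℓ hℓN hℓS A hA σ hσ]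
    simp only [Polynomial.map_add, Polynomial.map_sub, Polynomial.map_mul, Polynomial.map_pow,
      Polynomial.map_X, Polynomial.map_C, map_natCast, ResidueField.algebraMap_residue,
      Polynomial.map_natCast]
  -- descent to the residue field of `𝒪'`
  have hmem : ∀ τ : GQ, ∃ P : (ResidueField 𝒪')[X],
      P.map (algebraMap (ResidueField 𝒪') (ResidueField 𝒪'')) =
        LinearMap.charpoly (ρ.residual.ρ τ) := by
    refine ter_charpoly_mem ρ.residual S ?_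
    intro l hl hlS A hA σ hσ
    obtain ⟨hlN, hlp⟩ := hSnot l hl hlS
    exact ⟨_, (hFrobRes l hl hlN (by simpa using hlS) A hA σ hσ).symm⟩
  obtain ⟨ρ₀, hρ₀, hker⟩ := ter_descent ρ.residual.finrank_eq ρ.residual.ρ hmem
  have hinj : Function.Injective
      (Polynomial.map (algebraMap (ResidueField 𝒪') (ResidueField 𝒪''))) :=
    Polynomial.map_injective _ (algebraMap (ResidueField 𝒪') (ResidueField 𝒪'')).injective
  refine ⟨(terRepOfHom ρ.residual ρ₀ hker).baseChangeAlong ι, ?_, ?_⟩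
  · intro ℓ hℓ hℓN hℓk A hA σ hσ
    have hℓp : ℓ ≠ p := by
      rintro rfl
      exact hℓk (CharP.cast_eq_zero k ℓ)
    have hℓS := hnotS ℓ hℓ hℓN hℓp
    refine ⟨terEigenChar hg (↑S : Set ℕ) (heckeAlgebra.T hℓ hℓN hℓS),
      terEigenChar_T hg _ hℓ hℓN hℓS, ?_⟩
    have h1 : LinearMap.charpoly ((terRepOfHom ρ.residual ρ₀ hker).ρ σ) =
        X ^ 2 - C (residue 𝒪' (χ (heckeAlgebra.T hℓ hℓN hℓS))) * X + C ((ℓ : ResidueField 𝒪')) :=
      hinj ((hρ₀ σ).trans (hFrobRes ℓ hℓ hℓN hℓS A hA σ hσ))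
    rw [ter_charpoly_baseChangeAlong, h1]
    simp only [Polynomial.map_add, Polynomial.map_sub, Polynomial.map_mul, Polynomial.map_pow,
      Polynomial.map_X, Polynomial.map_C, map_natCast, hι, Polynomial.map_natCast]
  · intro ℓ hℓ hℓNp A hA σ hσ
    have hℓN : ¬ ℓ ∣ N := fun h => hℓNp (h.mul_right p)
    have hℓp : ℓ ≠ p := by
      rintro rfl
      exact hℓNp (dvd_mul_left ℓ N)
    have h1 : ρ.ρ σ = 1 := hunr ℓ hℓ hℓN hℓp A hA σ hσ
    have h2 : ρ.residual.ρ σ = 1 := by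
      change (ρ.ρ σ).baseChange (ResidueField 𝒪'') = 1
      rw [h1, LinearMap.baseChange_one]
    have h3 : (terRepOfHom ρ.residual ρ₀ hker).ρ σ = 1 := hker σ h2
    rw [ter_baseChangeAlong_rho, h3]
    letI : Algebra (ResidueField 𝒪') k := ι.toAlgebra
    exact LinearMap.baseChange_one _ _

end Fermat.Agent.T1
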