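/-
T1-E (E-d), helper8: **rationality of all characteristic polynomials from the Frobenius elements**.

`ter_charpoly_mem` : let `ρ` be a residual Galois representation over a field `F`, `k₀ → F` a
subfield and `T` a finite set of primes.  If the characteristic polynomials of the Frobenius elements
at all primes outside `T` have coefficients in `k₀`, then so have the characteristic polynomials of
all elements.  (Only the division form of the Frobenius density theorem is used: every `σ` has a
power `σ ^ a`, `a` prime to the order of `σ` on the splitting field, which is a Frobenius there.)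
-/
import Fermat.Agent.Lib.FrobDensity.Main
import Fermat.Agent.Lib.T1.Asm.Res.DescentBasic
import Fermat.Prelude.Def_GaloisRep_Residual

set_option autoImplicit false
set_option linter.style.haveILetI false
set_option linter.unusedSectionVars false

open Polynomial

namespace Fermat.Agent.T1

local notation "Qbar" => AlgebraicClosure ℚ
local notation "GQ" => (AlgebraicClosure ℚ ≃ₐ[ℚ] AlgebraicClosure ℚ)

section LinAlg

variable {k₀ F : Type*} [Field k₀] [Field F] [Algebra k₀ F] {V : Type*} [AddCommGroup V]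
  [Module F V] [Module.Finite F V]

/-- an endomorphism of a plane whose characteristic polynomial has coefficients in `k₀`: the same
holds for its powers -/
theorem ter_charpoly_pow_mem (hV : Module.finrank F V = 2) (f : Module.End F V)
    (hf : ∃ P : k₀[X], P.map (algebraMap k₀ F) = LinearMap.charpoly f) (n : ℕ) :
    ∃ P : k₀[X], P.map (algebraMap k₀ F) = LinearMap.charpoly (f ^ n) := by
  classical
  let bV : Module.Basis (Fin 2) F V := Module.finBasisOfFinrankEq F V hV
  set M := LinearMap.toMatrix bV bV f with hM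
  have hMn : LinearMap.toMatrix bV bV (f ^ n) = M ^ n := by
    rw [hM, LinearMap.toMatrix_pow]
  obtain ⟨P, hP⟩ := hf
  rw [← LinearMap.charpoly_toMatrix f bV, ← hM, Matrix.charpoly_fin_two] at hP
  have ht : M.trace ∈ (algebraMap k₀ F).range := by
    refine ⟨-P.coeff 1, ?_⟩
    have := congrArg (fun Q => Q.coeff 1) hP
    simp only [coeff_map] at this
    rw [map_neg, this]
    simp [coeff_X, coeff_C]
  have hd : M.det ∈ (algebraMap k₀ F).range := by
    refine ⟨P.coeff 0, ?_⟩
    have := congrArg (fun Q => Q.coeff 0) hP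
    simp only [coeff_map] at this
    rw [this]
    simp [coeff_X, coeff_C]
  obtain ⟨t, ht⟩ := ter_trace_pow_mem (algebraMap k₀ F).range M ht hd n
  obtain ⟨d, hd⟩ := ter_det_pow_mem (algebraMap k₀ F).range M hd n
  refine ⟨X ^ 2 - C t * X + C d, ?_⟩
  rw [← LinearMap.charpoly_toMatrix (f ^ n) bV, hMn, Matrix.charpoly_fin_two]
  simp [Polynomial.map_sub, Polynomial.map_add, Polynomial.map_mul, Polynomial.map_pow, ht, hd]

end LinAlg

/-- **all characteristic polynomials are rational over `k₀`** -/
theorem ter_charpoly_mem {k₀ F : Type} [Field k₀] [Field F] [Algebra k₀ F]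
    (ρ : ResidualGaloisRep F) (T : Finset ℕ)
    (hFrob : ∀ l : ℕ, l.Prime → l ∉ T → ∀ A : ValuationSubring Qbar, A.LiesOverPrime l →
      ∀ φ : GQ, A.IsFrobeniusAt φ l →
        ∃ P : k₀[X], P.map (algebraMap k₀ F) = LinearMap.charpoly (ρ.ρ φ)) (τ : GQ) :
    ∃ P : k₀[X], P.map (algebraMap k₀ F) = LinearMap.charpoly (ρ.ρ τ) := by
  classical
  haveI := Fermat.Agent.Lib.Helper6.isGalois_rat_algebraicClosure
  obtain ⟨L₀, hL₀fin, hL₀⟩ := ρ.factorsThroughFiniteLevel
  haveI := hL₀fin
  set L := IntermediateField.normalClosure ℚ L₀ Qbar with hL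
  haveI : FiniteDimensional ℚ L := normalClosure.is_finiteDimensional ℚ L₀ Qbar
  haveI : Normal ℚ L := normalClosure.normal ℚ L₀ Qbar
  have hL₀L : L₀ ≤ L := IntermediateField.le_normalClosure L₀
  have hfix : ∀ g : GQ, (∀ x ∈ L, g x = x) → ρ.ρ g = 1 :=
    fun g hg => hL₀ g fun x hx => hg x (hL₀L hx)
  have hagree : ∀ g h : GQ, (∀ x ∈ L, g x = h x) → ρ.ρ g = ρ.ρ h := by
    intro g h hgh
    have h1 : ρ.ρ (h⁻¹ * g) = 1 := by
      apply hfix
      intro x hx
      change h⁻¹ (g x) = x
      rw [hgh x hx]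
      exact h.symm_apply_apply x
    rw [map_mul] at h1
    have h2 : ρ.ρ h * (ρ.ρ h⁻¹ * ρ.ρ g) = ρ.ρ h := by rw [h1, mul_one]
    rw [← mul_assoc, ← map_mul, mul_inv_cancel, map_one, one_mul] at h2
    exact h2
  obtain ⟨l, hl, hlT, P, φ, hPl, hφ, -, e, he, hφe⟩ :=
    Fermat.Agent.FrobDensity.exists_frobenius_generating L τ T
  set r := AlgEquiv.restrictNormalHom (F := ℚ) (K₁ := Qbar) L τ with hr
  set d := orderOf r with hd
  have hdpos : 0 < d := orderOf_pos r
  have hτd : ∀ x ∈ L, (τ ^ d) x = x := by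
    intro x hx
    have h1 : algebraMap ↥L Qbar ((AlgEquiv.restrictNormalHom (F := ℚ)
        (K₁ := Qbar) ↥L (τ ^ d)) ⟨x, hx⟩) = (τ ^ d) (algebraMap ↥L Qbar ⟨x, hx⟩) :=
      AlgEquiv.restrictNormal_commutes (τ ^ d) ↥L ⟨x, hx⟩
    rw [map_pow, ← hr, hd, pow_orderOf_eq_one] at h1
    exact h1.symm
  -- an inverse of `e` modulo `d`
  obtain ⟨b, hτeq⟩ : ∃ b : ℕ, ρ.ρ τ = ρ.ρ φ ^ b := by
    rcases Nat.eq_or_lt_of_le (Nat.succ_le_of_lt hdpos) with h1 | h1
    · refine ⟨0, ?_⟩
      rw [pow_zero]
      apply hfix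
      intro x hx
      have := hτd x hx
      rwa [← h1, pow_one] at this
    · obtain ⟨b, -, hm⟩ := Nat.exists_mul_mod_eq_one_of_coprime he h1
      have hbc : e * b = 1 + d * (e * b / d) := by
        have := Nat.div_add_mod (e * b) d
        rw [hm] at this
        omega
      refine ⟨b, ?_⟩
      have h2 : ρ.ρ φ = ρ.ρ (τ ^ e) := hagree _ _ hφe
      rw [h2, ← map_pow, ← pow_mul, hbc]
      apply hagree
      intro x hx
      rw [pow_add, pow_one, pow_mul]
      have hdc : ∀ c : ℕ, ((τ ^ d) ^ c) x = x := by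
        intro c
        induction c with
        | zero => rfl
        | succ c ih => rw [pow_succ, AlgEquiv.mul_apply, hτd x hx, ih]
      rw [AlgEquiv.mul_apply, hdc]
  rw [hτeq]
  exact ter_charpoly_pow_mem ρ.finrank_eq _ (hFrob l hl hlT P hPl φ hφ) b

end Fermat.Agent.T1
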