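/-
T1-E (E-d), helper8: **S29 ⟹ S42**.

`TerS29` is (a verbatim copy of) the statement S29 (residual Galois representations of normalised
eigenforms).  `ter_s42_of_s29 : TerS29 → (statement S42)`: for a Frey package `P`, every normalised
eigenform `g` of level `M` and every maximal ideal `𝔪 ∋ p` of `ℤ̄` there is a two-dimensional
representation over `K = ℤ̄ ⧸ 𝔪` with the Frobenius traces `a_ℓ(g) mod 𝔪` and determinants `ℓ`, which
factors, together with the `p`-torsion of the Frey curve, through a finite Galois number field.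
-/
import Fermat.Agent.Lib.S13.Torsion.Frey
import Fermat.Agent.Lib.S13.Glue
import Fermat.Prelude.Def_FreyPackage_EigenformResidualAttachment
import Fermat.Prelude.Def_GaloisRep_Residual
import Fermat.Agent.Lib.T1.Asm.Res.CharpolyMem

set_option autoImplicit false
set_option linter.style.haveILetI false
set_option linter.unusedSectionVars false

open Polynomial CuspForm WeierstrassCurve WeierstrassCurve.Affine.Point

namespace Fermat.Agent.T1

local notation "Qbar" => AlgebraicClosure ℚ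
local notation "GQ" => (AlgebraicClosure ℚ ≃ₐ[ℚ] AlgebraicClosure ℚ)

/-- the statement S29 -/
def TerS29 : Prop :=
  ∀ {N : ℕ} {g : CuspForm (CongruenceSubgroup.Gamma0 N) 2} (_ : g.IsNormalizedEigenform)
    {p : ℕ} (_ : p.Prime) {k : Type} [Field k] [CharP k p]
    (φ : integralClosure ℤ ℂ →+* k),
    ∃ ρ : ResidualGaloisRep k, ρ.IsAttachedTo g φ ∧
      ∀ ℓ : ℕ, ℓ.Prime → ¬ ℓ ∣ N * p → ρ.IsUnramifiedAt ℓ

/-- trace and determinant of an endomorphism of a plane from its characteristic polynomial -/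
theorem ter_trace_det_of_charpoly {K V : Type*} [Field K] [AddCommGroup V] [Module K V]
    [Module.Finite K V] (hV : Module.finrank K V = 2) (f : Module.End K V) (t d : K)
    (hf : LinearMap.charpoly f = X ^ 2 - C t * X + C d) :
    LinearMap.trace K V f = t ∧ LinearMap.det f = d := by
  classical
  let bV : Module.Basis (Fin 2) K V := Module.finBasisOfFinrankEq K V hV
  have h1 := LinearMap.charpoly_toMatrix f bV
  rw [hf, Matrix.charpoly_fin_two] at h1
  have ht : (LinearMap.toMatrix bV bV f).trace = t := by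
    have h2 : (X ^ 2 - C (LinearMap.toMatrix bV bV f).trace * X +
        C (LinearMap.toMatrix bV bV f).det).coeff 1 = (X ^ 2 - C t * X + C d).coeff 1 := by
      rw [h1]
    simpa [coeff_X, coeff_C] using h2
  have hd : (LinearMap.toMatrix bV bV f).det = d := by
    have h2 : (X ^ 2 - C (LinearMap.toMatrix bV bV f).trace * X +
        C (LinearMap.toMatrix bV bV f).det).coeff 0 = (X ^ 2 - C t * X + C d).coeff 0 := by
      rw [h1]
    simpa [coeff_X, coeff_C] using h2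
  exact ⟨by rw [LinearMap.trace_eq_matrix_trace K bV f, ht], by rw [← LinearMap.det_toMatrix bV f, hd]⟩

/-- the `p`-torsion representation of the Frey curve factors through a finite level -/
theorem ter_frey_finiteLevel (P : FreyPackage) :
    GaloisFactorsThroughFiniteLevel
      (galoisRepModuleEnd (S := ℚ) (K := AlgebraicClosure ℚ) P.freyCurve P.p) := by
  have hcard := Fermat.Agent.S13Lib.Torsion.natCard_torsionBy_frey P P.hppos
  haveI : Finite (Fermat.Agent.S13Lib.Tors P.freyCurve P.p) :=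
    Nat.finite_of_card_ne_zero (by rw [hcard]; exact pow_ne_zero 2 P.hp0)
  obtain ⟨U, hU, h⟩ := Fermat.Agent.S13Lib.exists_isOpen_forall_smul_eq (E := P.freyCurve) (n := P.p)
  obtain ⟨E, hE, hEU⟩ := (krullTopology_mem_nhds_one_iff ℚ Qbar _).mp (hU.mem_nhds U.one_mem)
  refine ⟨E, hE, fun σ hσ => ?_⟩
  have hσU : σ ∈ U := hEU ((IntermediateField.mem_fixingSubgroup_iff E σ).mpr hσ)
  refine LinearMap.ext fun x => ?_
  rw [galoisRepModuleEnd_apply, Module.End.one_apply]
  exact h σ hσU x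

/-- two finite levels are contained in a finite normal one -/
theorem ter_exists_normal_level (L₁ L₂ : IntermediateField ℚ Qbar) (h₁ : FiniteDimensional ℚ L₁)
    (h₂ : FiniteDimensional ℚ L₂) :
    ∃ L : IntermediateField ℚ Qbar, FiniteDimensional ℚ L ∧ Normal ℚ L ∧ L₁ ≤ L ∧ L₂ ≤ L := by
  haveI := h₁
  haveI := h₂
  haveI := Fermat.Agent.Lib.Helper6.isGalois_rat_algebraicClosure
  haveI : FiniteDimensional ℚ ↥(L₁ ⊔ L₂) := IntermediateField.finiteDimensional_sup L₁ L₂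
  refine ⟨IntermediateField.normalClosure ℚ ↥(L₁ ⊔ L₂) Qbar,
    normalClosure.is_finiteDimensional ℚ _ Qbar, normalClosure.normal ℚ _ Qbar, ?_, ?_⟩
  · exact le_sup_left.trans (IntermediateField.le_normalClosure _)
  · exact le_sup_right.trans (IntermediateField.le_normalClosure _)

/-- **S29 ⟹ S42** -/
theorem ter_s42_of_s29 (h29 : TerS29) (P : FreyPackage) :
    ∀ M : ℕ, 0 < M → P.EigenformResidualAttachmentAt M := by
  classical
  intro M _ g hg 𝔪 h𝔪 hp𝔪
  haveI := h𝔪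
  haveI := Fermat.Agent.Lib.Helper6.isGalois_rat_algebraicClosure
  letI : Field (integralClosure ℤ ℂ ⧸ 𝔪) := Ideal.Quotient.field 𝔪
  haveI : CharP (integralClosure ℤ ℂ ⧸ 𝔪) P.p := by
    rw [CharP.charP_iff_prime_eq_zero P.pp, ← map_natCast (Ideal.Quotient.mk 𝔪)]
    exact Ideal.Quotient.eq_zero_iff_mem.mpr hp𝔪
  obtain ⟨ρ, hatt, -⟩ := h29 hg P.pp (Ideal.Quotient.mk 𝔪)
  obtain ⟨L₁, hL₁, hρ⟩ := ρ.factorsThroughFiniteLevel
  obtain ⟨L₂, hL₂, hE⟩ := ter_frey_finiteLevel P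
  obtain ⟨L, hLfin, hLnorm, hL₁L, hL₂L⟩ := ter_exists_normal_level L₁ L₂ hL₁ hL₂
  haveI := hLfin
  haveI := hLnorm
  haveI : NumberField ↥L := NumberField.of_module_finite ℚ ↥L
  haveI : IsGalois ℚ ↥L := ⟨⟩
  have hℓk : ∀ ℓ : ℕ, ℓ.Prime → ℓ ≠ P.p → ((ℓ : ℕ) : integralClosure ℤ ℂ ⧸ 𝔪) ≠ 0 := by
    intro ℓ hℓ hℓp h0
    rw [CharP.cast_eq_zero_iff (integralClosure ℤ ℂ ⧸ 𝔪) P.p] at h0
    exact hℓp ((Nat.prime_dvd_prime_iff_eq P.pp hℓ).mp h0).symm
  refine ⟨integralClosure ℤ ℂ ⧸ 𝔪, inferInstance, ZMod.algebra _ P.p, ρ.V, inferInstance,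
    inferInstance, ρ.ρ, Ideal.Quotient.mk 𝔪, ↥L, inferInstance, inferInstance, inferInstance,
    inferInstance, inferInstance, ?_, ρ.finrank_eq, ?_, ?_, ?_⟩
  · rw [Ideal.mk_ker]
  · intro σ hσ
    rw [MonoidHom.mem_ker] at hσ
    have hfix : ∀ x ∈ L, σ x = x := by
      intro x hx
      have h1 : algebraMap ↥L Qbar ((AlgEquiv.restrictNormalHom (F := ℚ)
          (K₁ := Qbar) ↥L σ) ⟨x, hx⟩) = σ (algebraMap ↥L Qbar ⟨x, hx⟩) :=
        AlgEquiv.restrictNormal_commutes σ ↥L ⟨x, hx⟩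
      rw [hσ] at h1
      exact h1.symm
    refine ⟨?_, ?_⟩
    · exact MonoidHom.mem_ker.mpr (hE σ fun x hx => hfix x (hL₂L hx))
    · exact MonoidHom.mem_ker.mpr (hρ σ fun x hx => hfix x (hL₁L hx))
  · intro ℓ hℓ hℓM hℓp A hA τ hτ
    obtain ⟨a, ha, hcp⟩ := hatt ℓ hℓ hℓM (hℓk ℓ hℓ hℓp) A hA τ hτ
    exact ⟨a, ha, (ter_trace_det_of_charpoly ρ.finrank_eq _ _ _ hcp).1⟩
  · intro ℓ hℓ hℓM hℓp A hA τ hτ
    obtain ⟨a, ha, hcp⟩ := hatt ℓ hℓ hℓM (hℓk ℓ hℓ hℓp) A hA τ hτ
    exact (ter_trace_det_of_charpoly ρ.finrank_eq _ _ _ hcp).2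

end Fermat.Agent.T1
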